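import Fermat.Agent.GAL.FF.RH.FibConst

/-!
# GAL-FF / RH5: approximation.  `𝔸_{F'} = 𝔸_{F'/F} + 𝔸_{F'}(D')` for every divisor `D'`.
-/

set_option autoImplicit false
set_option linter.unusedSectionVars false

open AlgebraicCurve Fermat.Agent.Lib.RR

namespace Fermat.Agent.GAL.FF

section WeakApprox

variable {K E : Type*} [Field K] [Field E] [Algebra K E] [IsAlgClosed K] [IsFF K E]

/-- If `h1 D = 0` every repartition is the sum of an element of `𝔸(D)` and a principal one.
(`H1 D` is finite dimensional of `finrank` zero, hence subsingleton, so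
`repartitionsOf D ⊔ principalRepartitions = ⊤`.) -/
theorem exists_sub_mem_of_h1_eq_zero {D : Divisor K E} (h : h1 D = 0)
    (α : ↥(repartitions K E)) :
    ∃ z : E, ∀ w : Place K E,
      (α : Place K E → E) w = z ∨ - D w ≤ w.ord ((α : Place K E → E) w - z) := by
  have hsub : Subsingleton (H1 D) := Module.finrank_zero_iff.1 h
  have htop : repartitionsOf D ⊔ principalRepartitions K E = ⊤ :=
    Submodule.Quotient.subsingleton_iff.1 hsub
  have hα : α ∈ repartitionsOf D ⊔ principalRepartitions K E := by
    rw [htop]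
    exact Submodule.mem_top
  obtain ⟨y, hy, z, hz, hyz⟩ := Submodule.mem_sup.1 hα
  obtain ⟨z₀, hz₀⟩ := mem_principalRepartitions_iff.1 hz
  refine ⟨z₀, fun w => ?_⟩
  have h1 : (α : Place K E → E) w = (y : Place K E → E) w + z₀ := by
    rw [← hyz]
    show (y : Place K E → E) w + (z : Place K E → E) w = _
    rw [hz₀]
  rcases mem_repartitionsOf_iff.1 hy w with h0 | h0
  · left
    rw [h1, h0, zero_add]
  · right
    rw [h1, add_sub_cancel_right]
    exact h0

/-- Weak approximation (free from Riemann-Roch). Take `c` from `exists_h1_eq_zero`, a place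
`u ∉ s` (`exists_place_notMem`), `D = - ∑_{w ∈ s} N w • pt w + M • pt u` with `M` large
(`deg_eq_one_of_isAlgClosed`), and apply `exists_sub_mem_of_h1_eq_zero` to the repartition
`w ↦ if w ∈ s then a w else 0`. -/
theorem exists_weak_approx (s : Finset (Place K E)) (a : Place K E → E) (N : Place K E → ℤ) :
    ∃ z : E, ∀ w ∈ s, a w = z ∨ N w ≤ w.ord (a w - z) := by
  classical
  obtain ⟨c, hc⟩ := exists_h1_eq_zero (K := K) (F := E)
  obtain ⟨u, hu⟩ := Cor.exists_place_notMem s
  let D : Divisor K E := (∑ w ∈ s, Finsupp.single w (-N w)) + Finsupp.single u (c + ∑ w ∈ s, N w)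
  have hdeg : Divisor.degree D = c := by
    simp only [D, map_add, map_sum, Divisor.degree_single, Cor.deg_eq_one_of_isAlgClosed,
      Nat.cast_one, mul_one, Finset.sum_neg_distrib]
    ring
  have hD : ∀ w ∈ s, D w = -N w := by
    intro w hw
    have hwu : u ≠ w := fun h => hu (h ▸ hw)
    simp only [D, Finsupp.add_apply, Finsupp.finsetSum_apply, Finsupp.single_apply, if_neg hwu,
      add_zero, Finset.sum_ite_eq', if_pos hw]
  have hmem : (fun w => if w ∈ s then a w else 0) ∈ repartitions K E := by
    apply mem_repartitions_of_finite_ord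
    refine s.finite_toSet.subset fun w hw => ?_
    by_contra hcon
    have hcon' : w ∉ s := hcon
    have hw' : w.ord (if w ∈ s then a w else 0) < 0 := hw
    rw [if_neg hcon', Place.ord_zero] at hw'
    exact lt_irrefl _ hw'
  obtain ⟨z, hz⟩ := exists_sub_mem_of_h1_eq_zero (hc D hdeg.ge) ⟨_, hmem⟩
  refine ⟨z, fun w hw => ?_⟩
  have := hz w
  simp only [if_pos hw, hD w hw, neg_neg] at this
  exact this

end WeakApprox

variable {k F F' : Type*} [Field k] [Field F] [Field F'] [Algebra k F] [Algebra k F']
  [Algebra F F'] [IsScalarTower k F F'] [FiniteDimensional F F'] [IsFF k F] [IsFF k F']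

/-- `𝔸_{F'} = 𝔸_{F'/F} + 𝔸_{F'}(D')`.  The set `Bad` of `w` with
`¬ (α w = 0 ∨ - D' w ≤ ord_w (α w))` is finite (`exists_le_mem_repartitionsOf` or
`mem_repartitions_iff` + finite support of `D'`). Let `T = image restrict Bad`. For `v ∈ T` choose
`z_v` by `exists_weak_approx` for `s = v.fiber F'`, `a = α`, `N = - D'`; for `v ∉ T` put `z_v = 0`.
`γ = (v ↦ z_v)` has finite support (`mem_fibConst_of_finite_support`). -/
theorem exists_fibConst_sub_mem [IsAlgClosed k] (α : ↥(repartitions k F')) (D' : Divisor k F') :
    ∃ γ : fibConst k F F', α - up γ ∈ repartitionsOf D' := by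
  classical
  let Bad : Set (Place k F') :=
    {w | ¬ ((α : Place k F' → F') w = 0 ∨ - D' w ≤ w.ord ((α : Place k F' → F') w))}
  have hBad : Bad.Finite := by
    obtain ⟨D, -, hD⟩ := exists_le_mem_repartitionsOf α D'
    refine (D - D').support.finite_toSet.subset fun w hw => ?_
    rw [Finset.mem_coe, Finsupp.mem_support_iff, Finsupp.sub_apply]
    intro h0
    apply hw
    have h1 : D w = D' w := by omega
    have := mem_repartitionsOf_iff.1 hD w
    rwa [h1] at this
  let T : Set (Place k F) := (fun w : Place k F' => w.restrict F) '' Bad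
  have hT : T.Finite := hBad.image _
  have hch : ∀ v : Place k F, ∃ z : F', ∀ w ∈ v.fiber F',
      (α : Place k F' → F') w = z ∨ - D' w ≤ w.ord ((α : Place k F' → F') w - z) := fun v =>
    exists_weak_approx (v.fiber F') (α : Place k F' → F') (fun w => - D' w)
  choose Z hZ using hch
  let γ : Place k F → F' := fun v => if v ∈ T then Z v else 0
  have hγ : γ ∈ fibConst k F F' := by
    apply mem_fibConst_of_finite_support
    refine hT.subset fun v hv => ?_
    by_contra hcon
    exact hv (if_neg hcon)
  refine ⟨⟨γ, hγ⟩, ?_⟩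
  rw [mem_repartitionsOf_iff]
  intro w
  show (α : Place k F' → F') w - γ (w.restrict F) = 0 ∨
    - D' w ≤ w.ord ((α : Place k F' → F') w - γ (w.restrict F))
  by_cases hv : w.restrict F ∈ T
  · simp only [γ, if_pos hv]
    rcases hZ (w.restrict F) w (Place.restrict_mem_fiber w) with h | h
    · left
      rw [h, sub_self]
    · right
      exact h
  · simp only [γ, if_neg hv, sub_zero]
    by_contra hcon
    exact hv ⟨w, hcon, rfl⟩

end Fermat.Agent.GAL.FF
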