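import Fermat.Agent.GAL.FF.RH.Rational
import Fermat.Agent.S24.DifferentialRH

/-!
# GAL-FF / RH9: in characteristic zero the Riemann genus `genusFF` (= `dim H¹(0)`) is the genus
`AlgebraicCurve.genus` of the Prelude (degree of the divisor of a Kähler differential).
-/

set_option autoImplicit false

namespace Fermat.Agent.GAL.FF

open AlgebraicCurve Fermat.Agent.Lib.RR IntermediateField KaehlerDifferential

variable {k F : Type*} [Field k] [IsAlgClosed k] [CharZero k] [Field F] [Algebra k F]

/-- The degree of the divisor of a nonzero Kähler differential is `2 genusFF - 2`. -/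
theorem degree_eq_of_ordDifferential (x : F) (hx : Transcendental k x) [FiniteDimensional k⟮x⟯ F]
    (Dv : Divisor k F) (ω : Ω[F⁄k]) (hω : ω ≠ 0) (hD : ∀ v, Dv v = v.ordDifferential ω) :
    Divisor.degree Dv = 2 * (genusFF k F : ℤ) - 2 := by
  classical
  have hcz : CharZero k⟮x⟯ := charZero_of_injective_algebraMap (algebraMap k k⟮x⟯).injective
  have hsep : Algebra.IsSeparable k⟮x⟯ F := inferInstance
  obtain ⟨g, rfl⟩ := Fermat.Agent.S24.Differential.hgen x hx ω
  have hg : g ≠ 0 := by
    rintro rfl
    exact hω (zero_smul _ _)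
  obtain ⟨Dg, hDg, hdeg⟩ := Fermat.Agent.S24.exists_principal_divisor x hx g hg
  set E : Divisor k F := Dv - Dg with hE
  have hEv : ∀ v, E v = v.ordDifferential (D k F x) := by
    intro v
    rw [hE, Finsupp.sub_apply, hD, hDg, Fermat.Agent.S24.Differential.hsmul x hx v g hg]; ring
  have hdegE : Divisor.degree Dv = Divisor.degree E := by
    rw [hE, map_sub, hdeg, sub_zero]
  have hx0 : x ≠ 0 := by
    rintro rfl
    exact hx isAlgebraic_zero
  have hcases : ∀ v : Place k F, v.ord x < 0 ∨ ∃ c : k, 0 < v.ord (x - algebraMap k F c) := by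
    intro v
    by_cases h : v.ord x < 0
    · exact Or.inl h
    · right
      obtain ⟨c, hc⟩ := Fermat.Agent.S24.exists_const_of_mem x hx v x
        (Fermat.Agent.S24.mem_of_ord_nonneg v hx0 (by omega))
      rcases hc with hc | hc
      · exact absurd (hc ▸ isAlgebraic_algebraMap (A := F) c) hx
      · exact ⟨c, hc⟩
  have : FiniteDimensional k⟮x⁻¹⟯ F := by
    rw [Fermat.Agent.S24.adjoin_inv_eq]; infer_instance
  obtain ⟨Zinf, hZinf, hsinf⟩ := Fermat.Agent.S24.exists_finset_zeros x⁻¹
    (Fermat.Agent.S24.transcendental_inv hx)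
  rw [Fermat.Agent.S24.adjoin_inv_eq] at hsinf
  have hZinf' : ∀ v, v ∈ Zinf ↔ v.ord x < 0 := by
    intro v
    rw [hZinf, v.ord_inv]
    omega
  -- the local formula
  have hloc : ∀ w : Place k F, E w = ((w.ramificationIndex k⟮x⟯ : ℤ) - 1)
      - (if w ∈ Zinf then 2 * w.ord x⁻¹ else 0) := by
    intro w
    rcases hcases w with h | ⟨c, hc⟩
    · rw [if_pos ((hZinf' w).2 h), hEv, Fermat.Agent.S24.Differential.hinf x hx w h,
        ramificationIndex_adjoin_of_neg x hx w h, w.ord_inv]
      ring
    · have hnp : w ∉ Zinf := by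
        intro hmem
        have h1 := (hZinf' w).1 hmem
        have hne : x - algebraMap k F c ≠ 0 := by
          intro h
          rw [h, w.ord_zero] at hc; omega
        have hmem' : x - algebraMap k F c ∈ w.toValuationSubring :=
          Fermat.Agent.S24.mem_of_ord_nonneg w hne hc.le
        have : x ∈ w.toValuationSubring := by
          have := add_mem hmem' (w.algebraMap_mem' c)
          rwa [sub_add_cancel] at this
        have := Fermat.Agent.S24.ord_nonneg_of_mem w this
        omega
      rw [if_neg hnp, hEv, Fermat.Agent.S24.Differential.hfin x hx w c hc,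
        ramificationIndex_adjoin_of_pos x hx w c hc]
      ring
  set S : Finset (Place k F) := E.support ∪ Zinf with hSdef
  have hS : ∀ w : Place k F, w ∉ S → w.ramificationIndex k⟮x⟯ = 1 := by
    intro w hw
    rw [hSdef, Finset.mem_union, not_or, Finsupp.notMem_support_iff] at hw
    have h1 := hloc w
    rw [hw.1, if_neg hw.2] at h1
    omega
  have htame : ∀ w : Place k F, ((w.ramificationIndex k⟮x⟯ : ℕ) : k) ≠ 0 := by
    intro w
    have := w.ramificationIndex_pos (F := k⟮x⟯)
    exact Nat.cast_ne_zero.2 (by omega)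
  have hRH := riemann_hurwitz_tame_adjoin x hx S hS htame
  rw [hdegE, Fermat.Agent.S24.degree_eq_sum_of_deg_one
    (Fermat.Agent.S24.place_deg_eq_one x hx) E S Finset.subset_union_left, hRH,
    Finset.sum_congr rfl (fun w _ => hloc w), Finset.sum_sub_distrib]
  have h2 : ∑ w ∈ S, (if w ∈ Zinf then 2 * w.ord x⁻¹ else 0)
      = 2 * (Module.finrank k⟮x⟯ F : ℤ) := by
    rw [← Finset.sum_filter, ← hsinf, Finset.mul_sum]
    apply Finset.sum_congr _ (fun _ _ => rfl)
    ext w
    rw [Finset.mem_filter, hSdef, Finset.mem_union]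
    tauto
  rw [h2]
  ring

theorem genus_eq_genusFF (x : F) (hx : Transcendental k x) [FiniteDimensional k⟮x⟯ F]
    [HasCanonicalDivisor (K := k) (F := F)] : genus k F = genusFF k F := by
  have h := Fermat.Agent.S24.genus_eq_of_degree (K := k) (F := F) (genusFF k F : ℚ) ⟨_, rfl⟩
    (Fermat.Agent.S24.Differential.exists_ne_zero x hx)
    (fun ω hω Dv hD => by
      rw [degree_eq_of_ordDifferential x hx Dv ω hω hD]; push_cast; ring)
  exact_mod_cast h

end Fermat.Agent.GAL.FF
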