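import Mathlib
import Fermat.Prelude.Def_AlgebraicCurve_DivisorPushPull
import Fermat.Agent.Lib.RR.Main
import Fermat.Agent.GAL.FF.Corollaries

/-!
# GAL-FF / RH (RH5-RH7): fibrewise constant repartitions of a finite extension `F' / F`

A fibrewise constant repartition of `F'` is modelled by a function `γ : Place k F → F'`:
`up γ = γ ∘ restrict` is a repartition of `F'`, `tr γ = Tr_{F'/F} ∘ γ` is a repartition of `F`.
(Stichtenoth, Section 3.4: `𝔸_{F'/F}` and `Tr : 𝔸_{F'/F} → 𝔸_F`.)

The three inputs proved elsewhere (RH1, RH2, RH3) appear as explicit `Prop` hypotheses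
`Function.Surjective (Place.restrict F)`, `LocalTraceBound k F F'`, `TameTrace k F F'`.
-/

set_option autoImplicit false
set_option linter.unusedSectionVars false

open AlgebraicCurve Fermat.Agent.Lib.RR

namespace Fermat.Agent.GAL.FF

variable (k F F' : Type*) [Field k] [Field F] [Field F'] [Algebra k F] [Algebra k F']
  [Algebra F F'] [IsScalarTower k F F'] [FiniteDimensional F F'] [IsFF k F] [IsFF k F']

/-- (RH2) If `ord_w z ≥ e_w m - (e_w - 1)` for all `w | v` then `ord_v (Tr z) ≥ m`. -/
def LocalTraceBound : Prop :=
  ∀ (v : Place k F) (z : F') (m : ℤ),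
    (∀ w ∈ v.fiber F', z = 0 ∨
      (w.ramificationIndex F : ℤ) * m - ((w.ramificationIndex F : ℤ) - 1) ≤ w.ord z) →
    Algebra.trace F F' z = 0 ∨ m ≤ v.ord (Algebra.trace F F' z)

/-- (RH3) At a tame place `w₀` the bound of `LocalTraceBound` is sharp. -/
def TameTrace : Prop :=
  ∀ (w₀ : Place k F'), ((w₀.ramificationIndex F : ℕ) : k) ≠ 0 → ∀ m : ℤ,
    ∃ z : F', z ≠ 0 ∧ w₀.ord z = (w₀.ramificationIndex F : ℤ) * (m - 1) ∧
      (∀ w ∈ (w₀.restrict F).fiber F', w ≠ w₀ → (w.ramificationIndex F : ℤ) * m ≤ w.ord z) ∧
      Algebra.trace F F' z ≠ 0 ∧ (w₀.restrict F).ord (Algebra.trace F F' z) = m - 1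

variable {k F F'}

/-- `γ ∘ restrict`. -/
def upFun (γ : Place k F → F') : Place k F' → F' := fun w => γ (w.restrict F)

/-- `Tr ∘ γ`. -/
noncomputable def trFun (γ : Place k F → F') : Place k F → F := fun v => Algebra.trace F F' (γ v)

variable (k F F') in
/-- Fibrewise constant repartitions of `F'`, as functions on the places of `F`. -/
def fibConst : Submodule k (Place k F → F') where
  carrier := {γ | upFun γ ∈ repartitions k F'}
  zero_mem' := (repartitions k F').zero_mem
  add_mem' := fun {a b} ha hb => (repartitions k F').add_mem ha hb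
  smul_mem' := fun c a ha => by
    have h : upFun (c • a) = algebraMap k F' c • upFun a := by
      funext w
      simp [upFun, Algebra.smul_def]
    show upFun (c • a) ∈ repartitions k F'
    rw [h]
    exact (repartitions k F').smul_mem ha _

theorem mem_fibConst_iff {γ : Place k F → F'} :
    γ ∈ fibConst k F F' ↔ {w : Place k F' | w.ord (γ (w.restrict F)) < 0}.Finite :=
  mem_repartitions_iff

/-- The repartition of `F'` attached to a fibrewise constant repartition. -/
def up : fibConst k F F' →ₗ[k] ↥(repartitions k F') where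
  toFun γ := ⟨upFun γ.1, γ.2⟩
  map_add' _ _ := rfl
  map_smul' c a := by
    apply Subtype.ext
    funext w
    rfl

@[simp] theorem up_apply (γ : fibConst k F F') (w : Place k F') :
    (up γ : Place k F' → F') w = γ.1 (w.restrict F) := rfl

/-- `Tr γ` is a repartition of `F`: if `ord_v (Tr (γ v)) < 0` then, by the local trace bound with
`m = 0`, some `w | v` has `ord_w (γ v) < 0`; so the bad `v` are in the image under `restrict` of
the finite set of poles of `up γ`. -/
theorem trFun_mem_repartitions (hLT : LocalTraceBound k F F') (γ : fibConst k F F') :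
    trFun γ.1 ∈ repartitions k F := by
  rw [mem_repartitions_iff]
  have hP := mem_fibConst_iff.mp γ.2
  refine (hP.image (fun w : Place k F' => w.restrict F)).subset ?_
  intro v hv
  have hv' : v.ord (Algebra.trace F F' (γ.1 v)) < 0 := hv
  by_contra hcon
  have hall : ∀ w ∈ v.fiber F', γ.1 v = 0 ∨
      (w.ramificationIndex F : ℤ) * 0 - ((w.ramificationIndex F : ℤ) - 1) ≤ w.ord (γ.1 v) := by
    intro w hw
    right
    have hwv : w.restrict F = v := Place.mem_fiber.mp hw
    have h1 : ¬ w.ord (γ.1 (w.restrict F)) < 0 := fun h => hcon ⟨w, h, hwv⟩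
    rw [hwv] at h1
    have h2 : 0 < w.ramificationIndex F := w.ramificationIndex_pos
    omega
  rcases hLT v (γ.1 v) 0 hall with h0 | h0
  · rw [h0] at hv'
    simp at hv'
  · omega

/-- The trace of a fibrewise constant repartition. -/
noncomputable def tr (hLT : LocalTraceBound k F F') :
    fibConst k F F' →ₗ[k] ↥(repartitions k F) where
  toFun γ := ⟨trFun γ.1, trFun_mem_repartitions hLT γ⟩
  map_add' a b := by
    apply Subtype.ext
    funext v
    show Algebra.trace F F' (a.1 v + b.1 v) = _
    rw [map_add]
    rfl
  map_smul' c a := by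
    apply Subtype.ext
    funext v
    show Algebra.trace F F' (c • a.1 v) = c • Algebra.trace F F' (a.1 v)
    rw [← algebraMap_smul F c (a.1 v), map_smul, algebraMap_smul]

@[simp] theorem tr_apply (hLT : LocalTraceBound k F F') (γ : fibConst k F F') (v : Place k F) :
    (tr hLT γ : Place k F → F) v = Algebra.trace F F' (γ.1 v) := rfl

/-- Constant functions are fibrewise constant repartitions. -/
theorem const_mem_fibConst (z : F') : (fun _ : Place k F => z) ∈ fibConst k F F' := by
  rw [mem_fibConst_iff]
  refine (divOf (K := k) z).support.finite_toSet.subset fun w hw => ?_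
  have hw' : w.ord z < 0 := hw
  rw [Finset.mem_coe, Finsupp.mem_support_iff, divOf_apply]
  omega

/-- auxiliary form of `mem_fibConst_of_finite_support`. -/
theorem fibConst_aux_finite_support {γ : Place k F → F'} (h : {v | γ v ≠ 0}.Finite) :
    γ ∈ fibConst k F F' := by
  rw [mem_fibConst_iff]
  refine (h.biUnion fun v _ => Place.restrict_fiber_finite (F' := F') v).subset ?_
  intro w hw
  have hw' : w.ord (γ (w.restrict F)) < 0 := hw
  refine Set.mem_biUnion (x := w.restrict F) ?_ rfl
  intro h0
  have h0' : γ (w.restrict F) = 0 := h0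
  rw [h0'] at hw'
  simp at hw'

open Classical in
/-- Functions supported at one place are fibrewise constant repartitions (finite fibres:
`Place.restrict_fiber_finite`). -/
theorem single_mem_fibConst (v₀ : Place k F) (z : F') :
    (Pi.single v₀ z : Place k F → F') ∈ fibConst k F F' := by
  refine fibConst_aux_finite_support ((Set.finite_singleton v₀).subset fun v hv => ?_)
  by_contra hne
  have hne' : v ≠ v₀ := hne
  exact hv (by rw [Pi.single_apply, if_neg hne'])

/-- More generally functions with finite support. -/
theorem mem_fibConst_of_finite_support {γ : Place k F → F'} (h : {v | γ v ≠ 0}.Finite) :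
    γ ∈ fibConst k F F' := by
  exact fibConst_aux_finite_support h

/-- `z₀ · α` for a repartition `α` of `F` (`ord_w (z₀ α_v) < 0` forces `ord_w z₀ < 0` or
`ord_v α_v < 0`, use `Place.ord_restrict` and finiteness of the fibres). -/
theorem mul_mem_fibConst (z₀ : F') (α : ↥(repartitions k F)) :
    (fun v : Place k F => z₀ * algebraMap F F' ((α : Place k F → F) v)) ∈ fibConst k F F' := by
  rw [mem_fibConst_iff]
  have h1 : {w : Place k F' | w.ord z₀ < 0}.Finite := by
    refine (divOf (K := k) z₀).support.finite_toSet.subset fun w hw => ?_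
    have hw' : w.ord z₀ < 0 := hw
    rw [Finset.mem_coe, Finsupp.mem_support_iff, divOf_apply]
    omega
  have h2 := mem_repartitions_iff.mp α.2
  refine (h1.union (h2.biUnion fun v _ => Place.restrict_fiber_finite (F' := F') v)).subset ?_
  intro w hw
  have hw' : w.ord (z₀ * algebraMap F F' ((α : Place k F → F) (w.restrict F))) < 0 := hw
  by_cases hz : z₀ = 0
  · rw [hz] at hw'
    simp at hw'
  by_cases ha : (α : Place k F → F) (w.restrict F) = 0
  · rw [ha] at hw'
    simp at hw'
  have ha' : algebraMap F F' ((α : Place k F → F) (w.restrict F)) ≠ 0 := by simpa using ha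
  rw [w.ord_mul hz ha', w.ord_restrict] at hw'
  by_cases h3 : w.ord z₀ < 0
  · exact Or.inl h3
  · right
    refine Set.mem_biUnion (x := w.restrict F) ?_ rfl
    show (w.restrict F).ord ((α : Place k F → F) (w.restrict F)) < 0
    by_contra h4
    have h5 : 0 ≤ (w.ramificationIndex F : ℤ) *
        (w.restrict F).ord ((α : Place k F → F) (w.restrict F)) :=
      mul_nonneg (Int.natCast_nonneg _) (not_lt.mp h4)
    omega

/-- (a1) of Stichtenoth 3.4.6: `Tr` maps `𝔸_{F'/F}(Con W + R)` into `𝔸_F(W)` as soon as
`R w ≤ e_w - 1` for all `w` (`LocalTraceBound` with `m = - W v`, `Divisor.pullback_apply`). -/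
theorem tr_mem_repartitionsOf (hLT : LocalTraceBound k F F') (W : Divisor k F)
    (R : Divisor k F') (hR : ∀ w : Place k F', R w ≤ (w.ramificationIndex F : ℤ) - 1)
    (γ : fibConst k F F') (h : up γ ∈ repartitionsOf (Divisor.pullback F' W + R)) :
    tr hLT γ ∈ repartitionsOf W := by
  rw [mem_repartitionsOf_iff] at h ⊢
  intro v
  rw [tr_apply]
  refine hLT v (γ.1 v) (-W v) fun w hw => ?_
  have hwv : w.restrict F = v := Place.mem_fiber.mp hw
  rcases h w with h0 | h0
  · left
    rw [up_apply, hwv] at h0
    exact h0
  · right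
    rw [up_apply, hwv, Finsupp.add_apply, Divisor.pullback_apply, hwv] at h0
    have h1 := hR w
    have h2 : (w.ramificationIndex F : ℤ) * -W v = -((w.ramificationIndex F : ℤ) * W v) := by ring
    omega

end Fermat.Agent.GAL.FF
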