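import Fermat.Agent.GAL.FF.RH.Defs
import Fermat.Agent.S24.SumFormula

/-!
# GAL-FF / RH2: the local trace bound (Dedekind's lower bound `d(w|v) ≥ e_w - 1`)
-/

set_option autoImplicit false
set_option linter.style.haveILetI false

namespace Fermat.Agent.GAL.FF

open AlgebraicCurve Fermat.Agent.Lib.RR IsDedekindDomain

section Abstract

variable {A F F' : Type*} [CommRing A] [IsDomain A] [IsIntegrallyClosed A] [Field F] [Field F']
  [Algebra A F] [IsFractionRing A F] [Algebra F F'] [Algebra A F'] [IsScalarTower A F F']
  [FiniteDimensional F F'] [Algebra.IsSeparable F F']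

/-- If `y ^ N = t • b` with `b` integral over the integrally closed domain `A`, then a power of
the trace of `y` is divisible by `t` in `A`. -/
theorem LocalTrace_exists_pow_trace_eq (t : A) (y b : F') (N : ℕ) (hN : 0 < N)
    (hb : IsIntegral A b) (hy : y ^ N = algebraMap A F' t * b) :
    ∃ (M : ℕ) (c : A), (Algebra.trace F F' y) ^ M = algebraMap A F (t * c) := by
  classical
  let Ω := AlgebraicClosure F
  have hyint : IsIntegral A y := by
    apply IsIntegral.of_pow hN
    rw [hy]
    exact isIntegral_algebraMap.mul hb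
  let C := integralClosure A Ω
  have htr := trace_eq_sum_embeddings (K := F) (L := F') Ω (x := y)
  let I : Ideal C := Ideal.span {algebraMap A C t}
  have hmem : ∀ σ : F' →ₐ[F] Ω, ∀ x : F', IsIntegral A x → σ x ∈ C := by
    intro σ x hx
    exact hx.map (σ.restrictScalars A)
  have hrad : ∀ σ : F' →ₐ[F] Ω, (⟨σ y, hmem σ y hyint⟩ : C) ∈ I.radical := by
    intro σ
    refine ⟨N, ?_⟩
    rw [Ideal.mem_span_singleton']
    refine ⟨⟨σ b, hmem σ b hb⟩, ?_⟩
    apply Subtype.ext
    change σ b * algebraMap A Ω t = (σ y) ^ N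
    rw [← map_pow, hy, map_mul, mul_comm]
    congr 1
    rw [IsScalarTower.algebraMap_apply A F F', AlgHom.commutes, ← IsScalarTower.algebraMap_apply]
  have hsum : (∑ σ : F' →ₐ[F] Ω, (⟨σ y, hmem σ y hyint⟩ : C)) ∈ I.radical :=
    Ideal.sum_mem _ fun σ _ => hrad σ
  obtain ⟨M, hM⟩ := hsum
  rw [Ideal.mem_span_singleton'] at hM
  obtain ⟨c', hc'⟩ := hM
  have hc'' : (c' : Ω) * algebraMap A Ω t = (algebraMap F Ω (Algebra.trace F F' y)) ^ M := by
    have := congrArg (Subtype.val) hc'
    rw [htr]
    simpa using this
  set s := Algebra.trace F F' y with hs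
  by_cases ht : t = 0
  · refine ⟨M, 0, ?_⟩
    rw [ht, map_zero, mul_zero, ← map_pow] at hc''
    rw [mul_zero, map_zero]
    exact (map_eq_zero (algebraMap F Ω)).1 hc''.symm
  · have htF : algebraMap A F t ≠ 0 := by
      simpa using (IsFractionRing.injective A F).ne ht
    have hc3 : (c' : Ω) = algebraMap F Ω (s ^ M / algebraMap A F t) := by
      rw [map_div₀, map_pow, ← hc'', ← IsScalarTower.algebraMap_apply, mul_div_assoc, div_self,
        mul_one]
      rw [IsScalarTower.algebraMap_apply A F Ω]
      simpa using htF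
    have hint : IsIntegral A (s ^ M / algebraMap A F t) := by
      have h1 : IsIntegral A (c' : Ω) := c'.2
      rw [hc3] at h1
      exact (isIntegral_algebraMap_iff (algebraMap F Ω).injective).1 h1
    obtain ⟨c, hc⟩ := IsIntegrallyClosed.isIntegral_iff.1 hint
    refine ⟨M, c, ?_⟩
    rw [map_mul, hc, mul_div_cancel₀ _ htF]

end Abstract

section Places

variable {k F F' : Type*} [Field k] [Field F] [Field F'] [Algebra k F] [Algebra k F']
  [Algebra F F'] [IsScalarTower k F F'] [FiniteDimensional F F'] [Algebra.IsSeparable F F']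

/-- An element of `F'` lying in the valuation rings of all places above `v` is integral
over the valuation ring of `v` (stated for an arbitrary compatible algebra structure). -/
theorem LocalTrace_isIntegral_of_forall_mem (v : Place k F)
    [Algebra v.toValuationSubring F'] [IsScalarTower v.toValuationSubring F F'] (x : F')
    (h : ∀ w : Place k F', w.restrict F = v → x ∈ w.toValuationSubring) :
    IsIntegral v.toValuationSubring x := by
  let A := v.toValuationSubring
  let B := integralClosure A F'
  haveI : IsDedekindDomain B := integralClosure.isDedekindDomain A F F'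
  haveI : IsFractionRing B F' := integralClosure.isFractionRing_of_finite_extension F F'
  letI : Algebra k B := ((algebraMap A B).comp (algebraMap k A)).toAlgebra
  haveI : IsScalarTower k B F' := IsScalarTower.of_algebraMap_eq fun a => by
    change algebraMap k F' a = algebraMap A F' (algebraMap k A a)
    rw [IsScalarTower.algebraMap_apply A F F', IsScalarTower.algebraMap_apply k F F']
    rfl
  have hval : ∀ P : HeightOneSpectrum B, P.valuation F' x ≤ 1 := by
    intro P
    let w : Place k F' := Place.ofHeightOneSpectrum (K := k) (F := F') P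
    have hw : w.restrict F = v := by
      apply Place.ext
      symm
      refine ValuationSubring.eq_of_le_of_ne_top _ ?_ (w.restrict F).ne_top'
      intro a ha
      rw [Place.mem_restrict_iff]
      have := Fermat.Agent.S24.algebraMap_mem_ofHeightOneSpectrum (K := k) (F := F') P
        (algebraMap A B ⟨a, ha⟩)
      rw [← IsScalarTower.algebraMap_apply A B F', IsScalarTower.algebraMap_apply A F F'] at this
      exact this
    have := h w hw
    rw [Place.ofHeightOneSpectrum_toValuationSubring, Valuation.mem_valuationSubring_iff] at this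
    exact this
  obtain ⟨b, hb⟩ := HeightOneSpectrum.mem_integers_of_valuation_le_one F' x hval
  rw [← hb]
  exact b.2

/-- Core case: `y` vanishes at all places above `v`, then so does its trace. -/
theorem LocalTrace_core [HasPrincipalDivisors k F'] (v : Place k F) (y : F') (hy0 : y ≠ 0)
    (h : ∀ w ∈ v.fiber F', 1 ≤ w.ord y) :
    Algebra.trace F F' y = 0 ∨ 1 ≤ v.ord (Algebra.trace F F' y) := by
  classical
  let A := v.toValuationSubring
  letI : Algebra A F' := ((algebraMap F F').comp (algebraMap A F)).toAlgebra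
  haveI : IsScalarTower A F F' := IsScalarTower.of_algebraMap_eq fun _ => rfl
  obtain ⟨π, hπ⟩ := IsDiscreteValuationRing.exists_irreducible A
  have hπord : v.ord (π : F) = 1 := v.ord_coe_irreducible hπ
  have hπ0 : (π : F) ≠ 0 := by
    intro h0
    rw [h0, v.ord_zero] at hπord
    exact zero_ne_one hπord
  have hπ0' : algebraMap F F' (π : F) ≠ 0 := by simpa using hπ0
  set N : ℕ := 1 + ∑ w ∈ v.fiber F', w.ramificationIndex F with hN
  have hNle : ∀ w ∈ v.fiber F', w.ramificationIndex F ≤ N := by
    intro w hw
    have := Finset.single_le_sum (f := fun w : Place k F' => w.ramificationIndex F)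
      (fun _ _ => Nat.zero_le _) hw
    omega
  set b : F' := y ^ N / algebraMap F F' (π : F) with hb
  have hb0 : b ≠ 0 := div_ne_zero (pow_ne_zero _ hy0) hπ0'
  have hbint : IsIntegral A b := by
    apply LocalTrace_isIntegral_of_forall_mem v b
    intro w hw
    apply Fermat.Agent.S24.mem_of_ord_nonneg w hb0
    have hwf : w ∈ v.fiber F' := Place.mem_fiber.2 hw
    rw [hb, div_eq_mul_inv, w.ord_mul (pow_ne_zero _ hy0) (inv_ne_zero hπ0'), w.ord_inv,
      w.ord_restrict, hw, hπord, ← zpow_natCast, w.ord_zpow, mul_one]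
    have h1 := h w hwf
    have h2 := hNle w hwf
    have h3 : (N : ℤ) * 1 ≤ (N : ℤ) * w.ord y := by
      apply mul_le_mul_of_nonneg_left h1
      positivity
    have h4 : ((w.ramificationIndex F : ℕ) : ℤ) ≤ (N : ℤ) := by exact_mod_cast h2
    linarith
  have hyN : y ^ N = algebraMap A F' π * b := by
    change y ^ N = algebraMap F F' (π : F) * b
    rw [hb, mul_div_cancel₀ _ hπ0']
  obtain ⟨M, c, hc⟩ := LocalTrace_exists_pow_trace_eq (A := A) (F := F) π y b N (by omega) hbint hyN
  by_cases hs : Algebra.trace F F' y = 0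
  · exact Or.inl hs
  right
  set s := Algebra.trace F F' y with hsdef
  have hc' : s ^ M = (π : F) * (c : F) := by
    rw [hc, map_mul]
    rfl
  have hc0 : (c : F) ≠ 0 := by
    intro h0
    rw [h0, mul_zero] at hc'
    exact hs (eq_zero_of_pow_eq_zero hc')
  have hord := congrArg v.ord hc'
  rw [v.ord_mul hπ0 hc0, hπord, ← zpow_natCast, v.ord_zpow] at hord
  have hcnn : 0 ≤ v.ord (c : F) := Fermat.Agent.S24.ord_nonneg_of_mem v c.2
  by_contra hlt
  rw [not_le] at hlt
  have h5 : (M : ℤ) * v.ord s ≤ 0 := by
    apply mul_nonpos_of_nonneg_of_nonpos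
    · positivity
    · omega
  omega

/-- **Local trace bound** (RH2). -/
theorem local_trace_bound [HasPrincipalDivisors k F'] (v : Place k F) (z : F') (m : ℤ)
    (h : ∀ w ∈ v.fiber F', z = 0 ∨
      (w.ramificationIndex F : ℤ) * m - ((w.ramificationIndex F : ℤ) - 1) ≤ w.ord z) :
    Algebra.trace F F' z = 0 ∨ m ≤ v.ord (Algebra.trace F F' z) := by
  by_cases hz : z = 0
  · left; rw [hz, map_zero]
  obtain ⟨π, hπ⟩ := IsDiscreteValuationRing.exists_irreducible v.toValuationSubring
  have hπord : v.ord (π : F) = 1 := v.ord_coe_irreducible hπ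
  have hπ0 : (π : F) ≠ 0 := by
    intro h0
    rw [h0, v.ord_zero] at hπord
    exact zero_ne_one hπord
  set t : F := (π : F) with ht
  have ht0' : algebraMap F F' t ≠ 0 := by simpa using hπ0
  set u : F := t ^ (-(m - 1)) with hu
  have hu0 : u ≠ 0 := zpow_ne_zero _ hπ0
  have hu0' : algebraMap F F' u ≠ 0 := by simpa using hu0
  set y : F' := algebraMap F F' u * z with hy
  have hy0 : y ≠ 0 := mul_ne_zero hu0' hz
  have hcore := LocalTrace_core v y hy0 (by
    intro w hw
    have hw' : w.restrict F = v := Place.mem_fiber.1 hw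
    rw [hy, w.ord_mul hu0' hz, w.ord_restrict, hw', hu, v.ord_zpow, hπord]
    have := (h w hw).resolve_left hz
    linarith)
  have htr : Algebra.trace F F' y = u * Algebra.trace F F' z := by
    rw [hy, ← Algebra.smul_def, map_smul, smul_eq_mul]
  rw [htr] at hcore
  by_cases hs : Algebra.trace F F' z = 0
  · exact Or.inl hs
  right
  rcases hcore with h0 | h1
  · exact absurd h0 (mul_ne_zero hu0 hs)
  · rw [v.ord_mul hu0 hs, hu, v.ord_zpow, hπord] at h1
    linarith

end Places

variable {k F F' : Type*} [Field k] [IsAlgClosed k] [Field F] [Field F'] [Algebra k F]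
  [Algebra k F'] [Algebra F F'] [IsScalarTower k F F'] [FiniteDimensional F F']
  [Algebra.IsSeparable F F'] [IsFF k F] [IsFF k F']

/-- If `ord_w z ≥ e_w m - (e_w - 1)` for all `w | v` then `ord_v (Tr z) ≥ m`. -/
theorem ord_trace_ge (v : Place k F) (z : F') (m : ℤ)
    (h : ∀ w ∈ v.fiber F', z = 0 ∨
      (w.ramificationIndex F : ℤ) * m - ((w.ramificationIndex F : ℤ) - 1) ≤ w.ord z) :
    Algebra.trace F F' z = 0 ∨ m ≤ v.ord (Algebra.trace F F' z) :=
  local_trace_bound v z m h

end Fermat.Agent.GAL.FF
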