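import Fermat.Agent.GAL.FF.RH.Fibre
import Fermat.Agent.GAL.FF.RH.LocalTrace
import Fermat.Agent.GAL.FF.RH.FibConst

/-!
# GAL-FF / RH4: the Riemann-Hurwitz inequality (any characteristic, arbitrary base)
-/

set_option autoImplicit false

namespace Fermat.Agent.GAL.FF

open AlgebraicCurve Fermat.Agent.Lib.RR

variable {k F F' : Type*} [Field k] [IsAlgClosed k] [Field F] [Field F'] [Algebra k F]
  [Algebra k F'] [Algebra F F'] [IsScalarTower k F F'] [FiniteDimensional F F']
  [Algebra.IsSeparable F F'] [IsFF k F] [IsFF k F']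

/-- `H¹_F(W) ≠ 0 ⟹ H¹_{F'}(π^* W + ∑_S (e_w - 1) w) ≠ 0`. -/
theorem one_le_h1_pullback {W : Divisor k F} (hW : 1 ≤ h1 W) (S : Finset (Place k F')) :
    1 ≤ h1 (Divisor.pullback F' W + ramDiv F S) := by
  -- a class `α₀` which is nonzero in `H¹(W)`
  have hnt : Nontrivial (H1 W) := Module.nontrivial_of_finrank_pos (R := k) hW
  obtain ⟨x, hx⟩ := exists_ne (0 : H1 W)
  obtain ⟨α₀, rfl⟩ := Submodule.Quotient.mk_surjective _ x
  have hα₀ : α₀ ∉ repartitionsOf W ⊔ principalRepartitions k F := by
    intro h
    exact hx ((Submodule.Quotient.mk_eq_zero _).mpr h)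
  obtain ⟨z₀, hz₀⟩ := Algebra.trace_surjective F F' 1
  -- the repartition `z₀ α₀` of `F'`
  let a : ↥(repartitions k F') := up ⟨_, mul_mem_fibConst (F' := F') z₀ α₀⟩
  have ha : ∀ w : Place k F', (a : Place k F' → F') w
      = z₀ * algebraMap F F' ((α₀ : Place k F → F) (w.restrict F)) := fun w => rfl
  have hne : (Submodule.Quotient.mk a : H1 (Divisor.pullback F' W + ramDiv F S)) ≠ 0 := by
    intro h0
    rw [Submodule.Quotient.mk_eq_zero, Submodule.mem_sup] at h0
    obtain ⟨b, hb, p, hp, hbp⟩ := h0
    obtain ⟨z, hz⟩ := mem_principalRepartitions_iff.mp hp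
    rw [mem_repartitionsOf_iff] at hb
    apply hα₀
    -- `α₀ = (α₀ - Tr z) + Tr z`
    have hdecomp : α₀ = (α₀ - algebraMap F ↥(repartitions k F) (Algebra.trace F F' z))
        + algebraMap F ↥(repartitions k F) (Algebra.trace F F' z) := by abel
    rw [hdecomp]
    refine Submodule.add_mem_sup ?_ ?_
    · rw [mem_repartitionsOf_iff]
      intro v
      have hval : ((α₀ - algebraMap F ↥(repartitions k F) (Algebra.trace F F' z) :
          ↥(repartitions k F)) : Place k F → F) v
          = Algebra.trace F F' (z₀ * algebraMap F F' ((α₀ : Place k F → F) v) - z) := by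
        rw [map_sub, mul_comm, ← Algebra.smul_def, map_smul, hz₀, smul_eq_mul, mul_one]
        rfl
      rw [hval]
      apply ord_trace_ge
      intro w hw
      have hwv : w.restrict F = v := Place.mem_fiber.mp hw
      have hbw : (b : Place k F' → F') w
          = z₀ * algebraMap F F' ((α₀ : Place k F → F) v) - z := by
        have h1 : (b : Place k F' → F') w + (p : Place k F' → F') w
            = (a : Place k F' → F') w := by
          rw [← hbp]; rfl
        rw [hz, ha, hwv] at h1
        exact eq_sub_of_add_eq h1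
      rcases hb w with h | h
      · left; rw [← hbw]; exact h
      · right
        rw [← hbw]
        refine le_trans ?_ h
        rw [Finsupp.add_apply, Divisor.pullback_apply, hwv]
        have := ramDiv_apply_le (F := F) S w
        linarith
    · rw [mem_principalRepartitions_iff]
      exact ⟨_, rfl⟩
  have hnt' : Nontrivial (H1 (Divisor.pullback F' W + ramDiv F S)) := ⟨⟨_, _, hne⟩⟩
  exact Module.finrank_pos (R := k)

/-- **Riemann-Hurwitz inequality.** -/
theorem riemann_hurwitz_le (S : Finset (Place k F')) :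
    (Module.finrank F F' : ℤ) * (2 * (genusFF k F : ℤ) - 2) +
      ∑ w ∈ S, ((w.ramificationIndex F : ℤ) - 1) ≤ 2 * (genusFF k F' : ℤ) - 2 := by
  obtain ⟨W, hW⟩ := exists_isCanonical (K := k) (F := F)
  have h1W : 1 ≤ h1 W := by
    rw [hW W, sub_self]; exact one_le_ell_zero
  have h := one_le_h1_pullback (F' := F') h1W S
  by_contra hcon
  rw [not_le] at hcon
  have hdeg := degree_pullback_add_ramDiv (F' := F') W S
  have hWd := hW.degree_eq
  rw [ell_zero] at hWd
  have h0 : h1 (Divisor.pullback F' W + ramDiv F S) = 0 := by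
    apply h1_eq_zero_of_lt_degree
    rw [ell_zero, hdeg, hWd]
    push_cast
    linarith
  omega

/-- Only finitely many places ramify. -/
theorem finite_ramified : {w : Place k F' | w.ramificationIndex F ≠ 1}.Finite := by
  by_contra hinf
  have hinf' : {w : Place k F' | w.ramificationIndex F ≠ 1}.Infinite := hinf
  set C : ℤ := 2 * (genusFF k F' : ℤ) - 2
    - (Module.finrank F F' : ℤ) * (2 * (genusFF k F : ℤ) - 2) with hC
  obtain ⟨S, hS, hcard⟩ := hinf'.exists_subset_card_eq (C.toNat + 1)
  have h := riemann_hurwitz_le (F := F) S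
  have h1 : (S.card : ℤ) ≤ ∑ w ∈ S, ((w.ramificationIndex F : ℤ) - 1) := by
    rw [Finset.card_eq_sum_ones]
    push_cast
    apply Finset.sum_le_sum
    intro w hw
    have h2 : w.ramificationIndex F ≠ 1 := hS hw
    have h3 := w.ramificationIndex_pos (F := F)
    omega
  rw [hcard] at h1
  push_cast at h1
  have := Int.self_le_toNat C
  omega

end Fermat.Agent.GAL.FF
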