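import Fermat.Agent.GAL.FF.RH.Approx

/-!
# GAL-FF / RH6: the cotrace of a Weil differential (Stichtenoth 3.4.6)
-/

set_option autoImplicit false
set_option linter.unusedSectionVars false

open AlgebraicCurve Fermat.Agent.Lib.RR

namespace Fermat.Agent.GAL.FF

/-- Linear algebra: a functional `φ` on `M` descends along `f : M → E` to a functional on `E`
vanishing on `V`, provided `range f + V = E` and `φ` kills `f ⁻¹ V`. -/
theorem exists_linearMap_of_sup_eq_top {k E M : Type*} [Field k] [AddCommGroup E] [Module k E]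
    [AddCommGroup M] [Module k M] (V : Submodule k E) (f : M →ₗ[k] E) (φ : M →ₗ[k] k)
    (hφ : ∀ m, f m ∈ V → φ m = 0) (htop : LinearMap.range f ⊔ V = ⊤) :
    ∃ ψ : E →ₗ[k] k, (∀ m, ψ (f m) = φ m) ∧ ∀ x ∈ V, ψ x = 0 := by
  set g : M →ₗ[k] E ⧸ V := V.mkQ.comp f with hg
  have hsurj : Function.Surjective g := by
    intro y
    obtain ⟨x, rfl⟩ := V.mkQ_surjective y
    have hx : x ∈ LinearMap.range f ⊔ V := by rw [htop]; trivial
    obtain ⟨a, ⟨m, rfl⟩, b, hb, rfl⟩ := Submodule.mem_sup.1 hx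
    refine ⟨m, ?_⟩
    have hb0 : V.mkQ b = 0 := by
      rw [Submodule.mkQ_apply, Submodule.Quotient.mk_eq_zero]; exact hb
    rw [hg, LinearMap.comp_apply, map_add, hb0, add_zero]
  have hker : LinearMap.ker g ≤ LinearMap.ker φ := by
    intro m hm
    rw [LinearMap.mem_ker, hg, LinearMap.comp_apply, Submodule.mkQ_apply,
      Submodule.Quotient.mk_eq_zero] at hm
    exact hφ m hm
  let e := g.quotKerEquivOfSurjective hsurj
  let φbar : (M ⧸ LinearMap.ker g) →ₗ[k] k := (LinearMap.ker g).liftQ φ hker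
  refine ⟨(φbar.comp e.symm.toLinearMap).comp V.mkQ, fun m => ?_, fun x hx => ?_⟩
  · have h1 : e.symm (V.mkQ (f m)) = (LinearMap.ker g).mkQ m := by
      rw [LinearEquiv.symm_apply_eq]
      rfl
    simp only [LinearMap.comp_apply, LinearEquiv.coe_coe, h1]
    rfl
  · have h0 : V.mkQ x = 0 := by
      rw [Submodule.mkQ_apply, Submodule.Quotient.mk_eq_zero]; exact hx
    simp only [LinearMap.comp_apply, h0, map_zero]

variable {k F F' : Type*} [Field k] [Field F] [Field F'] [Algebra k F] [Algebra k F']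
  [Algebra F F'] [IsScalarTower k F F'] [FiniteDimensional F F'] [IsFF k F] [IsFF k F']

/-- The cotrace `ω'` of `ω`: `ω' (up γ) = ω (Tr γ)` and `ω'` vanishes on `𝔸_{F'}(Con W + R) + F'`
as soon as `R w ≤ e_w - 1`. -/
theorem exists_cotrace [IsAlgClosed k] (hLT : LocalTraceBound k F F')
    (ω : ↥(repartitions k F) →ₗ[k] k) (W : Divisor k F) (hω : VanishesOn ω W)
    (R : Divisor k F') (hR : ∀ w : Place k F', R w ≤ (w.ramificationIndex F : ℤ) - 1) :
    ∃ ω' : ↥(repartitions k F') →ₗ[k] k, VanishesOn ω' (Divisor.pullback F' W + R) ∧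
      ∀ γ : fibConst k F F', ω' (up γ) = ω (tr hLT γ) := by
  have hωW : ∀ α ∈ repartitionsOf W, ω α = 0 := fun α hα => hω (Submodule.mem_sup_left hα)
  have hωP : ∀ α ∈ principalRepartitions k F, ω α = 0 :=
    fun α hα => hω (Submodule.mem_sup_right hα)
  obtain ⟨ω', h1, h2⟩ := exists_linearMap_of_sup_eq_top
    (repartitionsOf (Divisor.pullback F' W + R)) (up (k := k) (F := F) (F' := F'))
    (ω.comp (tr hLT))
    (fun γ hγ => hωW _ (tr_mem_repartitionsOf hLT W R hR γ hγ))
    (by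
      rw [eq_top_iff]
      intro α _
      obtain ⟨γ, hγ⟩ := exists_fibConst_sub_mem (F := F) α (Divisor.pullback F' W + R)
      have : α = up γ + (α - up γ) := by abel
      rw [this]
      exact Submodule.add_mem_sup ⟨γ, rfl⟩ hγ)
  refine ⟨ω', ?_, h1⟩
  apply sup_le
  · intro α hα
    exact h2 α hα
  · intro α hα
    obtain ⟨z, hz⟩ := mem_principalRepartitions_iff.1 hα
    have hα' : α = up (⟨fun _ => z, const_mem_fibConst z⟩ : fibConst k F F') := by
      apply Subtype.ext
      rw [hz]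
      rfl
    rw [LinearMap.mem_ker, hα', h1]
    apply hωP
    rw [mem_principalRepartitions_iff]
    exact ⟨Algebra.trace F F' z, rfl⟩

/-- The cotrace of a nonzero differential is nonzero (`Tr z₀ = 1` for some `z₀`). -/
theorem cotrace_ne_zero [Algebra.IsSeparable F F'] (hLT : LocalTraceBound k F F')
    {ω : ↥(repartitions k F) →ₗ[k] k} {ω' : ↥(repartitions k F') →ₗ[k] k}
    (h : ∀ γ : fibConst k F F', ω' (up γ) = ω (tr hLT γ)) (hne : ω ≠ 0) : ω' ≠ 0 := by
  rintro rfl
  apply hne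
  obtain ⟨z₀, hz₀⟩ := Algebra.trace_surjective F F' 1
  ext α
  have h1 := h ⟨_, mul_mem_fibConst z₀ α⟩
  have h2 : tr hLT (⟨_, mul_mem_fibConst z₀ α⟩ : fibConst k F F') = α := by
    apply Subtype.ext
    funext v
    rw [tr_apply]
    show Algebra.trace F F' (z₀ * algebraMap F F' ((α : Place k F → F) v)) = _
    rw [mul_comm, ← Algebra.smul_def, map_smul, hz₀, smul_eq_mul, mul_one]
  rw [h2] at h1
  simpa using h1.symm

end Fermat.Agent.GAL.FF
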