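import Fermat.Agent.Lib.RR.Main
import Fermat.Agent.GAL.FF.Corollaries
import Fermat.Prelude.Def_AlgebraicCurve_DivisorPushPull

/-!
# GAL-FF, chapter RH (Riemann-Hurwitz): common definitions

Setting of the whole chapter: `k` algebraically closed of ANY characteristic, `F'/F` a finite
separable extension of function fields over `k` (`[IsFF k F] [IsFF k F']`, class of `Lib/RR`).
Objects of the Prelude (`Def_AlgebraicCurve_DivisorPushPull`): `Place.restrict F w`,
`Place.ramificationIndex F w`, `Place.fiber F' v`, `Divisor.pullback F'`, `FundamentalIdentity`.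
-/

set_option autoImplicit false

namespace Fermat.Agent.GAL.FF

open AlgebraicCurve Fermat.Agent.Lib.RR

variable {k F F' : Type*} [Field k] [Field F] [Field F'] [Algebra k F'] [Algebra F F']

variable (F) in
/-- The (tame) ramification divisor supported on `S`: `∑_{w ∈ S} (e_w - 1) w`. -/
noncomputable def ramDiv (S : Finset (Place k F')) : Divisor k F' :=
  ∑ w ∈ S, Finsupp.single w ((w.ramificationIndex F : ℤ) - 1)

theorem ramDiv_apply_of_mem {S : Finset (Place k F')} {w : Place k F'} (hw : w ∈ S) :
    ramDiv F S w = (w.ramificationIndex F : ℤ) - 1 := by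
  classical
  unfold ramDiv
  rw [Finset.sum_apply', Finset.sum_eq_single_of_mem w hw, Finsupp.single_eq_same]
  intro b _ hb
  exact Finsupp.single_eq_of_ne' hb

theorem ramDiv_apply_of_notMem {S : Finset (Place k F')} {w : Place k F'} (hw : w ∉ S) :
    ramDiv F S w = 0 := by
  classical
  unfold ramDiv
  rw [Finset.sum_apply']
  exact Finset.sum_eq_zero fun b hb => Finsupp.single_eq_of_ne fun h => hw (h ▸ hb)

theorem ramDiv_apply_le [Algebra.IsIntegral F F'] (S : Finset (Place k F')) (w : Place k F') :
    ramDiv F S w ≤ (w.ramificationIndex F : ℤ) - 1 := by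
  by_cases hw : w ∈ S
  · rw [ramDiv_apply_of_mem hw]
  · rw [ramDiv_apply_of_notMem hw]
    have := w.ramificationIndex_pos (F := F)
    omega

theorem degree_ramDiv (hdeg : ∀ w : Place k F', w.deg = 1) (S : Finset (Place k F')) :
    Divisor.degree (ramDiv F S) = ∑ w ∈ S, ((w.ramificationIndex F : ℤ) - 1) := by
  unfold ramDiv
  rw [map_sum]
  exact Finset.sum_congr rfl fun w _ => by rw [Divisor.degree_single, hdeg w]; simp

end Fermat.Agent.GAL.FF
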