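import Fermat.Agent.GAL.FF.RH.Defs
import Fermat.Agent.S24.SumFormula

/-!
# GAL-FF / RH1: the fibres of `Place.restrict` (fundamental identity, surjectivity)
-/

set_option autoImplicit false
set_option linter.style.haveILetI false

namespace Fermat.Agent.GAL.FF

open AlgebraicCurve Fermat.Agent.Lib.RR

variable {k F F' : Type*} [Field k] [IsAlgClosed k] [Field F] [Field F'] [Algebra k F]
  [Algebra k F'] [Algebra F F'] [IsScalarTower k F F'] [FiniteDimensional F F']
  [Algebra.IsSeparable F F'] [IsFF k F] [IsFF k F']

/-- `∑_{w | v} e_w = [F' : F]`. -/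
theorem sum_ramificationIndex (v : Place k F) :
    ∑ w ∈ v.fiber F', (w.ramificationIndex F : ℤ) = (Module.finrank F F' : ℤ) := by
  classical
  let A := v.toValuationSubring
  letI : Algebra A F' := ((algebraMap F F').comp (algebraMap A F)).toAlgebra
  haveI : IsScalarTower A F F' := IsScalarTower.of_algebraMap_eq fun _ => rfl
  haveI : IsScalarTower k A F' := IsScalarTower.of_algebraMap_eq fun a => by
    change algebraMap k F' a = algebraMap F F' (algebraMap k F a)
    rw [← IsScalarTower.algebraMap_apply]
  let B := integralClosure A F'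
  haveI : IsDedekindDomain B := integralClosure.isDedekindDomain A F F'
  haveI : IsFractionRing B F' := integralClosure.isFractionRing_of_finite_extension F F'
  haveI : Module.Finite A B := IsIntegralClosure.finite A F F' B
  letI : Algebra k B := ((algebraMap A B).comp (algebraMap k A)).toAlgebra
  haveI : IsScalarTower k A B := IsScalarTower.of_algebraMap_eq fun _ => rfl
  haveI : IsScalarTower k B F' := IsScalarTower.of_algebraMap_eq fun a => by
    change algebraMap k F' a = algebraMap A F' (algebraMap k A a)
    rw [← IsScalarTower.algebraMap_apply]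
  haveI : FaithfulSMul A F' := by
    rw [faithfulSMul_iff_algebraMap_injective]
    exact (algebraMap F F').injective.comp (IsFractionRing.injective A F)
  obtain ⟨π, hπ⟩ := IsDiscreteValuationRing.exists_irreducible A
  have hπord : v.ord (π : F) = 1 := v.ord_coe_irreducible hπ
  haveI hmax : (Ideal.span {π}).IsMaximal := by
    rw [← hπ.maximalIdeal_eq]; exact IsLocalRing.maximalIdeal.isMaximal A
  have hres : Function.Surjective (algebraMap k (A ⧸ Ideal.span {π})) := by
    intro y
    obtain ⟨a, rfl⟩ := Ideal.Quotient.mk_surjective y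
    have hint : Algebra.IsIntegral k v.ResidueField := inferInstance
    obtain ⟨c, hc⟩ := (IsAlgClosed.algebraMap_bijective_of_isIntegral (k := k)
      (K := v.ResidueField)).2 (IsLocalRing.residue A a)
    refine ⟨c, ?_⟩
    rw [IsScalarTower.algebraMap_apply k A (A ⧸ Ideal.span {π}), Ideal.Quotient.algebraMap_eq,
      Ideal.Quotient.eq, ← hπ.maximalIdeal_eq, ← IsLocalRing.residue_eq_zero_iff, map_sub, ← hc]
    exact sub_self _
  obtain ⟨Z, hZ, hsum⟩ := Fermat.Agent.S24.exists_finset_sum_ord (k := k) (A := A) (F := F') F B π
    hπ.ne_zero hres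
  have hZeq : Z = v.fiber F' := by
    ext w
    rw [hZ, Place.mem_fiber]
    constructor
    · rintro ⟨h1, -⟩
      apply Place.ext
      symm
      refine ValuationSubring.eq_of_le_of_ne_top _ ?_ (w.restrict F).ne_top'
      intro a ha
      rw [Place.mem_restrict_iff]
      exact h1 ⟨a, ha⟩
    · intro hw
      refine ⟨fun a => ?_, ?_⟩
      · have : (a : F) ∈ (w.restrict F).toValuationSubring := by rw [hw]; exact a.2
        exact (w.mem_restrict_iff).mp this
      · change 0 < w.ord (algebraMap F F' (π : F))
        rw [w.ord_restrict, hw, hπord, mul_one]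
        exact_mod_cast w.ramificationIndex_pos (F := F)
  rw [← hZeq, ← hsum]
  refine Finset.sum_congr rfl fun w hw => ?_
  have hw' : w.restrict F = v := by
    rw [hZeq] at hw; exact Place.mem_fiber.mp hw
  change _ = w.ord (algebraMap F F' (π : F))
  rw [w.ord_restrict, hw', hπord, mul_one]
instance instFundamentalIdentity : FundamentalIdentity k F F' where
  sum_ramificationIndex_mul_deg v := by
    rw [Cor.deg_eq_one_of_isAlgClosed v, ← sum_ramificationIndex (F' := F') v]
    simp only [Nat.cast_one, mul_one]
    exact Finset.sum_congr rfl fun w _ => by rw [Cor.deg_eq_one_of_isAlgClosed w]; simp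

theorem fiber_nonempty (v : Place k F) : (v.fiber F').Nonempty := by
  by_contra h
  rw [Finset.not_nonempty_iff_eq_empty] at h
  have h1 := sum_ramificationIndex (F' := F') v
  rw [h, Finset.sum_empty] at h1
  have h2 : 0 < Module.finrank F F' := Module.finrank_pos
  omega

theorem restrict_surjective :
    Function.Surjective (fun w : Place k F' => w.restrict F) := by
  intro v
  obtain ⟨w, hw⟩ := fiber_nonempty (F' := F') v
  exact ⟨w, Place.mem_fiber.mp hw⟩

theorem degree_pullback_add_ramDiv (W : Divisor k F) (S : Finset (Place k F')) :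
    Divisor.degree (Divisor.pullback F' W + ramDiv F S) =
      (Module.finrank F F' : ℤ) * Divisor.degree W +
        ∑ w ∈ S, ((w.ramificationIndex F : ℤ) - 1) := by
  rw [map_add, Divisor.degree_pullback, degree_ramDiv Cor.deg_eq_one_of_isAlgClosed]

end Fermat.Agent.GAL.FF
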