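import Fermat.Agent.GAL.FF.RH.FibConst

/-!
# GAL-FF / RH7a: local components and divisors of Weil differentials (one function field)
-/

set_option autoImplicit false
set_option linter.unusedSectionVars false

open AlgebraicCurve Fermat.Agent.Lib.RR

namespace Fermat.Agent.GAL.FF

section Local

variable {K E : Type*} [Field K] [Field E] [Algebra K E] [IsAlgClosed K] [IsFF K E]

open Classical in
theorem single_mem_repartitions (v₀ : Place K E) (u : E) :
    (Pi.single v₀ u : Place K E → E) ∈ repartitions K E := by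
  apply mem_repartitions_of_finite_ord
  apply (Set.finite_singleton v₀).subset
  intro v hv
  rw [Set.mem_singleton_iff]
  by_contra hne
  have hv' : v.ord ((Pi.single v₀ u : Place K E → E) v) < 0 := hv
  rw [Pi.single_eq_of_ne hne, Place.ord_zero] at hv'
  exact lt_irrefl _ hv'

/-- Every element of the valuation ring is congruent to a constant. -/
theorem LocalComp_exists_const (v : Place K E) (z : E) (hz : z ∈ v.toValuationSubring) :
    ∃ c : K, z = algebraMap K E c ∨ 0 < v.ord (z - algebraMap K E c) := by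
  have hsurj : Function.Surjective (algebraMap K v.ResidueField) :=
    (IsAlgClosed.algebraMap_bijective_of_isIntegral (k := K)).2
  obtain ⟨c, hc⟩ := hsurj (IsLocalRing.residue _ (⟨z, hz⟩ : v.toValuationSubring))
  refine ⟨c, ?_⟩
  have h1 : IsLocalRing.residue _ ((⟨z, hz⟩ : v.toValuationSubring)
      - algebraMap K v.toValuationSubring c) = 0 := by
    rw [map_sub, sub_eq_zero]
    exact hc.symm
  rw [IsLocalRing.residue_eq_zero_iff, Fermat.Agent.S24.mem_maximalIdeal_iff] at h1
  have hcoe : (((⟨z, hz⟩ : v.toValuationSubring) - algebraMap K v.toValuationSubring c :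
      v.toValuationSubring) : E) = z - algebraMap K E c := by
    push_cast
    rw [Place.coe_algebraMap]
  rw [hcoe] at h1
  rcases h1 with h1 | h1
  · exact Or.inl (sub_eq_zero.1 h1)
  · exact Or.inr h1

open Classical in
/-- A repartition supported at `v₀` with a value of order `≥ - W v₀` lies in `𝔸(W)`. -/
theorem LocalComp_single_mem (W : Divisor K E) (v₀ : Place K E) (a : E)
    (ha : a = 0 ∨ - W v₀ ≤ v₀.ord a) :
    (⟨Pi.single v₀ a, single_mem_repartitions v₀ a⟩ : ↥(repartitions K E)) ∈ repartitionsOf W := by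
  rw [mem_repartitionsOf_iff]
  intro v
  by_cases hv : v = v₀
  · subst hv
    simpa using ha
  · left
    show (Pi.single v₀ a : Place K E → E) v = 0
    rw [Pi.single_eq_of_ne hv]

open Classical in
/-- The local component at `v₀` of a Weil differential with divisor exactly `W` does not vanish
on elements of order exactly `- W v₀ - 1`. -/
theorem local_component_ne_zero {ω : ↥(repartitions K E) →ₗ[K] K} {W : Divisor K E}
    (hW : ∀ D : Divisor K E, VanishesOn ω D ↔ D ≤ W) (v₀ : Place K E) (u : E) (hu0 : u ≠ 0)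
    (hu : v₀.ord u = - W v₀ - 1) :
    ω ⟨Pi.single v₀ u, single_mem_repartitions v₀ u⟩ ≠ 0 := by
  have hωW : VanishesOn ω W := (hW W).2 le_rfl
  have hAW : ∀ α ∈ repartitionsOf W, ω α = 0 := fun α hα => hωW (Submodule.mem_sup_left hα)
  have hnot : ¬ VanishesOn ω (W + pt v₀) := by
    intro h
    have h1 := (hW _).1 h v₀
    simp only [Finsupp.add_apply, pt, Finsupp.single_eq_same] at h1
    omega
  -- an element of `𝔸(W + pt v₀)` on which `ω` does not vanish
  obtain ⟨α, hα, hωα⟩ : ∃ α ∈ repartitionsOf (W + pt v₀), ω α ≠ 0 := by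
    by_contra hcon
    apply hnot
    unfold VanishesOn
    rw [sup_le_iff]
    refine ⟨fun α hα => ?_, le_sup_right.trans hωW⟩
    by_contra hα0
    exact hcon ⟨α, hα, hα0⟩
  set a : E := (α : Place K E → E) v₀ with ha
  have hα' := mem_repartitionsOf_iff.1 hα
  -- the rest lies in `𝔸(W)`
  have hrest : α - ⟨Pi.single v₀ a, single_mem_repartitions v₀ a⟩ ∈ repartitionsOf W := by
    rw [mem_repartitionsOf_iff]
    intro v
    have hval : ((α - ⟨Pi.single v₀ a, single_mem_repartitions v₀ a⟩ : ↥(repartitions K E)) :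
        Place K E → E) v = (α : Place K E → E) v - (Pi.single v₀ a : Place K E → E) v := rfl
    rw [hval]
    by_cases hv : v = v₀
    · left
      rw [hv, Pi.single_eq_same, ha, sub_self]
    · rw [Pi.single_eq_of_ne hv, sub_zero]
      have h1 := hα' v
      simp only [Finsupp.add_apply, pt] at h1
      rw [Finsupp.single_eq_of_ne (Ne.symm (Ne.symm hv)), add_zero] at h1
      exact h1
  have hωa : ω ⟨Pi.single v₀ a, single_mem_repartitions v₀ a⟩ ≠ 0 := by
    have h1 := hAW _ hrest
    rw [map_sub, sub_eq_zero] at h1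
    rw [← h1]
    exact hωα
  have ha0 : a ≠ 0 := by
    intro h0
    exact hωa (hAW _ (LocalComp_single_mem W v₀ a (Or.inl h0)))
  have haord : v₀.ord a = - W v₀ - 1 := by
    have h1 := (hα' v₀).resolve_left ha0
    simp only [Finsupp.add_apply, pt, Finsupp.single_eq_same] at h1
    have h2 : ¬ (- W v₀ ≤ v₀.ord a) := fun h =>
      hωa (hAW _ (LocalComp_single_mem W v₀ a (Or.inr h)))
    rw [← ha] at h1
    omega
  -- compare `u` and `a`
  have hz : v₀.ord (u / a) = 0 := by
    rw [div_eq_mul_inv, v₀.ord_mul hu0 (inv_ne_zero ha0), v₀.ord_inv, hu, haord]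
    ring
  have hz0 : u / a ≠ 0 := div_ne_zero hu0 ha0
  obtain ⟨c, hc⟩ := LocalComp_exists_const v₀ (u / a)
    (Fermat.Agent.S24.mem_of_ord_nonneg v₀ hz0 hz.ge)
  have hc0 : c ≠ 0 := by
    rintro rfl
    rw [map_zero, sub_zero, hz] at hc
    rcases hc with hc | hc
    · exact hz0 hc
    · exact lt_irrefl _ hc
  have hdiff : u - algebraMap K E c * a = 0 ∨ - W v₀ ≤ v₀.ord (u - algebraMap K E c * a) := by
    have e1 : u - algebraMap K E c * a = (u / a - algebraMap K E c) * a := by
      field_simp
    rcases hc with hc | hc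
    · left
      rw [e1, hc, sub_self, zero_mul]
    · by_cases h0 : u / a - algebraMap K E c = 0
      · left
        rw [e1, h0, zero_mul]
      · right
        rw [e1, v₀.ord_mul h0 ha0, haord]
        omega
  have hsplit : (⟨Pi.single v₀ u, single_mem_repartitions v₀ u⟩ : ↥(repartitions K E))
      = ⟨Pi.single v₀ (u - algebraMap K E c * a), single_mem_repartitions v₀ _⟩
        + c • ⟨Pi.single v₀ a, single_mem_repartitions v₀ a⟩ := by
    apply Subtype.ext
    funext v
    show (Pi.single v₀ u : Place K E → E) v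
      = (Pi.single v₀ (u - algebraMap K E c * a) : Place K E → E) v
        + c • (Pi.single v₀ a : Place K E → E) v
    by_cases hv : v = v₀
    · rw [hv, Pi.single_eq_same, Pi.single_eq_same, Pi.single_eq_same, Algebra.smul_def]
      ring
    · rw [Pi.single_eq_of_ne hv, Pi.single_eq_of_ne hv, Pi.single_eq_of_ne hv, smul_zero,
        add_zero]
  rw [hsplit, map_add, map_smul, hAW _ (LocalComp_single_mem W v₀ _ hdiff), zero_add, smul_eq_mul]
  exact mul_ne_zero hc0 hωa

/-- A divisor `W` on which `ω ≠ 0` vanishes, and such that `ω` vanishes on no `W + pt v`,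
is the divisor of `ω`. -/
theorem vanishesOn_iff_le_of_not_add_pt {ω : ↥(repartitions K E) →ₗ[K] K} {W : Divisor K E}
    (hne : ω ≠ 0) (hω : VanishesOn ω W) (h : ∀ v : Place K E, ¬ VanishesOn ω (W + pt v)) :
    ∀ D : Divisor K E, VanishesOn ω D ↔ D ≤ W := by
  classical
  obtain ⟨W₁, hW₁⟩ := exists_divisor_weilDiff (⟨W, hω⟩ : ω ∈ weilDiff K E) hne
  have hle : W ≤ W₁ := (hW₁ W).1 hω
  have heq : W = W₁ := by
    by_contra hne'
    obtain ⟨v, hv⟩ : ∃ v, W v ≠ W₁ v := by
      by_contra hcon
      apply hne'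
      apply Finsupp.ext
      intro v
      by_contra hv
      exact hcon ⟨v, hv⟩
    have hlt : W v < W₁ v := lt_of_le_of_ne (hle v) hv
    apply h v
    rw [hW₁]
    intro w
    simp only [Finsupp.add_apply, pt, Finsupp.single_apply]
    split_ifs with hw
    · subst hw
      omega
    · have := hle w
      omega
  rw [heq]
  exact hW₁

/-- The divisor of a nonzero Weil differential is canonical. -/
theorem isCanonical_of_vanishesOn_iff {ω : ↥(repartitions K E) →ₗ[K] K} {W : Divisor K E}
    (hne : ω ≠ 0) (hW : ∀ D : Divisor K E, VanishesOn ω D ↔ D ≤ W) : IsCanonical W := by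
  intro D
  obtain ⟨e⟩ := exists_L_equiv_omegaOf hne hW D
  rw [← finrank_omegaOf, ell]
  exact e.finrank_eq.symm

/-- Every canonical divisor is the divisor of a Weil differential. -/
theorem IsCanonical.exists_weilDiff {W : Divisor K E} (hW : IsCanonical W) :
    ∃ ω : ↥(repartitions K E) →ₗ[K] K, ω ≠ 0 ∧ ∀ D : Divisor K E, VanishesOn ω D ↔ D ≤ W := by
  have h1 : Module.finrank K (omegaOf W) = 1 := by
    rw [finrank_omegaOf, hW W, sub_self, ell_zero]
  have hpos : 0 < Module.finrank K (omegaOf W) := by omega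
  obtain ⟨⟨ω, hω⟩, hne⟩ :=
    (Module.finrank_pos_iff_exists_ne_zero (R := K) (M := omegaOf W)).1 hpos
  have hne' : ω ≠ 0 := fun h => hne (Subtype.ext h)
  obtain ⟨W₁, hW₁⟩ := exists_divisor_weilDiff (⟨W, hω⟩ : ω ∈ weilDiff K E) hne'
  have hle : W ≤ W₁ := (hW₁ W).1 hω
  have hcan : IsCanonical W₁ := isCanonical_of_vanishesOn_iff hne' hW₁
  have h3 : W₁ - W = 0 := by
    apply eq_zero_of_nonneg_of_degree
    · exact sub_nonneg.mpr hle
    · rw [map_sub, hcan.degree_eq, hW.degree_eq, sub_self]
  have h4 : W₁ = W := sub_eq_zero.mp h3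
  exact ⟨ω, hne', h4 ▸ hW₁⟩

end Local

end Fermat.Agent.GAL.FF
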