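import Fermat.Agent.GAL.FF.IsFF
import Fermat.Agent.GAL.FF.Corollaries
import Fermat.Agent.Lib.RR.Main
import Fermat.Prelude.Def_AlgebraicCurve_DivisorPushPull

/-!
# GAL-FF / RH8: auxiliary lemmas on the rational function field `E = k(u)`
-/

set_option autoImplicit false
set_option linter.unusedSectionVars false

namespace Fermat.Agent.GAL.FF

open AlgebraicCurve Fermat.Agent.Lib.RR IntermediateField

variable {k : Type*} [Field k] [IsAlgClosed k]

section Top

variable {E : Type*} [Field E] [Algebra k E]

theorem RationalAux_adjoin_sub_const (x : E) (c : k) : k⟮x - algebraMap k E c⟯ = k⟮x⟯ := by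
  apply le_antisymm
  · rw [adjoin_simple_le_iff]
    exact sub_mem (mem_adjoin_simple_self k x) (IntermediateField.algebraMap_mem _ c)
  · rw [adjoin_simple_le_iff]
    have := add_mem (mem_adjoin_simple_self k (x - algebraMap k E c))
      (IntermediateField.algebraMap_mem k⟮x - algebraMap k E c⟯ c)
    rwa [sub_add_cancel] at this

theorem RationalAux_finiteDimensional {u : E} (htop : k⟮u⟯ = ⊤) : FiniteDimensional k⟮u⟯ E := by
  rw [htop]
  apply Module.finite_of_finrank_pos
  rw [IntermediateField.finrank_top]
  exact one_pos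

theorem RationalAux_isSeparable {u : E} (htop : k⟮u⟯ = ⊤) : Algebra.IsSeparable k⟮u⟯ E := by
  rw [htop]
  exact ⟨fun e => isSeparable_algebraMap (⟨e, trivial⟩ : (⊤ : IntermediateField k E))⟩

theorem RationalAux_finrank {u : E} (htop : k⟮u⟯ = ⊤) : Module.finrank k⟮u⟯ E = 1 := by
  rw [htop, IntermediateField.finrank_top]

theorem RationalAux_isFF {u : E} (hu : Transcendental k u) (htop : k⟮u⟯ = ⊤) : IsFF k E := by
  have := RationalAux_finiteDimensional htop
  have := RationalAux_isSeparable htop
  exact isFF_of_separable u hu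

/-- A generator of `E = k(u)` has only simple zeros, and exactly one. -/
theorem RationalAux_exists_unique_zero {u : E} (hu : Transcendental k u) (htop : k⟮u⟯ = ⊤) :
    ∃ v₀ : Place k E, v₀.ord u = 1 ∧ ∀ v : Place k E, 0 < v.ord u → v = v₀ := by
  classical
  have := RationalAux_finiteDimensional htop
  have := RationalAux_isSeparable htop
  obtain ⟨Z, hZ, hsum⟩ := exists_finset_zeros_sep u hu
  rw [RationalAux_finrank htop] at hsum
  have hne : Z.Nonempty := by
    by_contra h
    rw [Finset.not_nonempty_iff_eq_empty] at h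
    rw [h, Finset.sum_empty] at hsum
    simp at hsum
  obtain ⟨v₀, hv₀⟩ := hne
  have hpos : ∀ v ∈ Z, 1 ≤ v.ord u := fun v hv => (hZ v).1 hv
  have hsplit := Finset.add_sum_erase Z (fun v => v.ord u) hv₀
  have hrest : ∀ v ∈ Z.erase v₀, 1 ≤ v.ord u := fun v hv => hpos v (Finset.mem_of_mem_erase hv)
  have hcard : ((Z.erase v₀).card : ℤ) ≤ ∑ v ∈ Z.erase v₀, v.ord u := by
    have := Finset.card_nsmul_le_sum (Z.erase v₀) (fun v => v.ord u) 1 hrest
    simpa using this
  have h1 := hpos v₀ hv₀
  push_cast at hsum
  have hc0 : (Z.erase v₀).card = 0 := by omega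
  refine ⟨v₀, ?_, fun v hv => ?_⟩
  · rw [Finset.card_eq_zero] at hc0
    rw [hc0, Finset.sum_empty] at hsplit
    omega
  · by_contra hne
    have : v ∈ Z.erase v₀ := Finset.mem_erase.2 ⟨hne, (hZ v).2 hv⟩
    rw [Finset.card_eq_zero] at hc0
    rw [hc0] at this
    simp at this

theorem RationalAux_ord_eq_one {u : E} (hu : Transcendental k u) (htop : k⟮u⟯ = ⊤)
    (v : Place k E) (hv : 0 < v.ord u) : v.ord u = 1 := by
  obtain ⟨v₀, h1, h2⟩ := RationalAux_exists_unique_zero hu htop
  rw [h2 v hv, h1]

/-- The rational function field has genus `0`. -/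
theorem RationalAux_genusFF {u : E} (hu : Transcendental k u) (htop : k⟮u⟯ = ⊤) :
    genusFF k E = 0 := by
  classical
  have hFF := RationalAux_isFF hu htop
  have htop' : k⟮u⁻¹⟯ = ⊤ := by rw [Fermat.Agent.S24.adjoin_inv_eq, htop]
  obtain ⟨v₀, h1, h2⟩ := RationalAux_exists_unique_zero
    (Fermat.Agent.S24.transcendental_inv hu) htop'
  have hu0 : u ≠ 0 := by
    rintro rfl
    exact hu isAlgebraic_zero
  set m : ℕ := 2 * genusFF k E with hm
  set D : Divisor k E := m • pt v₀ with hD
  have hdeg : Divisor.degree D = m := by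
    rw [hD, map_nsmul, degree_pt, Cor.deg_eq_one_of_isAlgClosed]
    simp
  have hmem : ∀ i : Fin (m + 1), u ^ (i : ℕ) ∈ riemannRochSpace D := by
    intro i
    rw [mem_riemannRochSpace_iff]
    intro v
    right
    have hord : v.ord (u ^ (i : ℕ)) = (i : ℕ) * v.ord u := by
      have := v.ord_zpow u ((i : ℕ) : ℤ)
      rwa [zpow_natCast] at this
    rw [hord, hD]
    by_cases hv : v = v₀
    · subst hv
      rw [v.ord_inv] at h1
      have hi : ((i : ℕ) : ℤ) ≤ m := by exact_mod_cast Nat.lt_succ_iff.1 i.2
      simp only [Finsupp.smul_apply, pt, Finsupp.single_eq_same, nsmul_eq_mul, mul_one]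
      have : v.ord u = -1 := by omega
      rw [this]
      omega
    · have hnn : 0 ≤ v.ord u := by
        by_contra hneg
        apply hv
        apply h2
        rw [v.ord_inv]
        omega
      have hz : (m • pt v₀ : Divisor k E) v = 0 := by
        simp [pt, Ne.symm hv]
      rw [hz]
      have : (0 : ℤ) ≤ ((i : ℕ) : ℤ) * v.ord u := mul_nonneg (by positivity) hnn
      omega
  have hli : LinearIndependent k (fun i : Fin (m + 1) =>
      (⟨u ^ (i : ℕ), hmem i⟩ : riemannRochSpace D)) := by
    have h0 := (riemann_linearIndependent_pow (K := k) hu).comp (fun i : Fin (m + 1) => (i : ℕ))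
      Fin.val_injective
    apply LinearIndependent.of_comp (riemannRochSpace D).subtype
    exact h0
  have hcard := hli.fintype_card_le_finrank
  rw [Fintype.card_fin] at hcard
  have hell := ell_eq_of_lt_degree' (K := k) (F := E) (D := D) (by rw [hdeg, hm]; push_cast; omega)
  rw [hdeg] at hell
  have : (m : ℤ) + 1 ≤ ell D := by
    unfold ell
    exact_mod_cast hcard
  omega

end Top

section Gen

variable {F : Type*} [Field F] [Algebra k F]

theorem RationalAux_adjoin_gen (x : F) :
    k⟮AdjoinSimple.gen k x⟯ = (⊤ : IntermediateField k k⟮x⟯) := by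
  apply IntermediateField.map_injective (k⟮x⟯).val
  rw [IntermediateField.adjoin_map, Set.image_singleton, ← AlgHom.fieldRange_eq_map,
    IntermediateField.fieldRange_val]
  rfl

theorem RationalAux_transcendental_gen {x : F} (hx : Transcendental k x) :
    Transcendental k (AdjoinSimple.gen k x) := by
  intro h
  apply hx
  have := h.algebraMap (A := F)
  exact this

end Gen

end Fermat.Agent.GAL.FF
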