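import Fermat.Agent.GAL.FF.RH.TameMain
import Fermat.Agent.GAL.FF.IsFF
import Fermat.Agent.GAL.FF.RH.RationalAux

/-!
# GAL-FF / RH8: the rational function field `k(x)`; Riemann-Hurwitz over `k(x)`
-/

set_option autoImplicit false

namespace Fermat.Agent.GAL.FF

open AlgebraicCurve Fermat.Agent.Lib.RR IntermediateField

variable {k F : Type*} [Field k] [IsAlgClosed k] [Field F] [Algebra k F]

theorem isFF_adjoin (x : F) (hx : Transcendental k x) : IsFF k k⟮x⟯ :=
  RationalAux_isFF (RationalAux_transcendental_gen hx) (RationalAux_adjoin_gen x)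

theorem genusFF_adjoin (x : F) (hx : Transcendental k x) : genusFF k k⟮x⟯ = 0 :=
  RationalAux_genusFF (RationalAux_transcendental_gen hx) (RationalAux_adjoin_gen x)

/-- `e_w = ord_w (x - c)` at a zero of `x - c`. -/
theorem ramificationIndex_adjoin_of_pos (x : F) (hx : Transcendental k x)
    [FiniteDimensional k⟮x⟯ F] (w : Place k F) (c : k)
    (h : 0 < w.ord (x - algebraMap k F c)) :
    (w.ramificationIndex k⟮x⟯ : ℤ) = w.ord (x - algebraMap k F c) := by
  set u : k⟮x⟯ := AdjoinSimple.gen k x - algebraMap k k⟮x⟯ c with hu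
  have hmap : algebraMap k⟮x⟯ F u = x - algebraMap k F c := by
    rw [hu, map_sub, AdjoinSimple.algebraMap_gen, ← IsScalarTower.algebraMap_apply]
  have htr : Transcendental k u :=
    Cor.transcendental_sub_algebraMap (RationalAux_transcendental_gen hx) c
  have htop : k⟮u⟯ = ⊤ := by
    rw [hu, RationalAux_adjoin_sub_const, RationalAux_adjoin_gen]
  have h1 := w.ord_restrict (F := k⟮x⟯) u
  rw [hmap] at h1
  have hpos : 0 < (w.restrict k⟮x⟯).ord u := by
    have he : (0 : ℤ) < (w.ramificationIndex k⟮x⟯ : ℤ) := by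
      exact_mod_cast w.ramificationIndex_pos (F := k⟮x⟯)
    rw [h1] at h
    exact (mul_pos_iff_of_pos_left he).1 h
  rw [h1, RationalAux_ord_eq_one htr htop _ hpos, mul_one]

/-- `e_w = - ord_w x` at a pole of `x`. -/
theorem ramificationIndex_adjoin_of_neg (x : F) (hx : Transcendental k x)
    [FiniteDimensional k⟮x⟯ F] (w : Place k F) (h : w.ord x < 0) :
    (w.ramificationIndex k⟮x⟯ : ℤ) = - w.ord x := by
  set u : k⟮x⟯ := (AdjoinSimple.gen k x)⁻¹ with hu
  have hmap : algebraMap k⟮x⟯ F u = x⁻¹ := by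
    rw [hu, map_inv₀, AdjoinSimple.algebraMap_gen]
  have htr : Transcendental k u :=
    Fermat.Agent.S24.transcendental_inv (RationalAux_transcendental_gen hx)
  have htop : k⟮u⟯ = ⊤ := by
    rw [hu, Fermat.Agent.S24.adjoin_inv_eq, RationalAux_adjoin_gen]
  have h1 := w.ord_restrict (F := k⟮x⟯) u
  rw [hmap, w.ord_inv] at h1
  have hpos : 0 < (w.restrict k⟮x⟯).ord u := by
    have he : (0 : ℤ) < (w.ramificationIndex k⟮x⟯ : ℤ) := by
      exact_mod_cast w.ramificationIndex_pos (F := k⟮x⟯)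
    have h2 : 0 < (w.ramificationIndex k⟮x⟯ : ℤ) * (w.restrict k⟮x⟯).ord u := by
      rw [← h1]; omega
    exact (mul_pos_iff_of_pos_left he).1 h2
  rw [h1, RationalAux_ord_eq_one htr htop _ hpos, mul_one]

/-- Riemann-Hurwitz inequality over `k(x)`. -/
theorem riemann_hurwitz_le_adjoin (x : F) (hx : Transcendental k x) [FiniteDimensional k⟮x⟯ F]
    [Algebra.IsSeparable k⟮x⟯ F] (S : Finset (Place k F)) :
    -2 * (Module.finrank k⟮x⟯ F : ℤ) + ∑ w ∈ S, ((w.ramificationIndex k⟮x⟯ : ℤ) - 1)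
      ≤ 2 * (genusFF k F : ℤ) - 2 := by
  have := isFF_adjoin x hx
  have := isFF_of_separable x hx
  have h := riemann_hurwitz_le (k := k) (F := k⟮x⟯) (F' := F) S
  rw [genusFF_adjoin x hx] at h
  push_cast at h
  linarith

/-- Riemann-Hurwitz formula over `k(x)`, tame case. -/
theorem riemann_hurwitz_tame_adjoin (x : F) (hx : Transcendental k x) [FiniteDimensional k⟮x⟯ F]
    [Algebra.IsSeparable k⟮x⟯ F] (S : Finset (Place k F))
    (hS : ∀ w : Place k F, w ∉ S → w.ramificationIndex k⟮x⟯ = 1)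
    (htame : ∀ w : Place k F, ((w.ramificationIndex k⟮x⟯ : ℕ) : k) ≠ 0) :
    2 * (genusFF k F : ℤ) - 2 =
      -2 * (Module.finrank k⟮x⟯ F : ℤ) + ∑ w ∈ S, ((w.ramificationIndex k⟮x⟯ : ℤ) - 1) := by
  have := isFF_adjoin x hx
  have := isFF_of_separable x hx
  have h := riemann_hurwitz_tame (k := k) (F := k⟮x⟯) (F' := F) S hS htame
  rw [genusFF_adjoin x hx] at h
  push_cast at h
  linarith

end Fermat.Agent.GAL.FF
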