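import Fermat.Agent.GAL.FF.RH.Cotrace
import Fermat.Agent.GAL.FF.RH.LocalComp

/-!
# GAL-FF / RH7: Riemann-Hurwitz, equality in the tame case
-/

set_option autoImplicit false
set_option linter.unusedSectionVars false

open AlgebraicCurve Fermat.Agent.Lib.RR

namespace Fermat.Agent.GAL.FF

variable {k F F' : Type*} [Field k] [Field F] [Field F'] [Algebra k F] [Algebra k F']
  [Algebra F F'] [IsScalarTower k F F'] [FiniteDimensional F F'] [IsFF k F] [IsFF k F']

/-- (a2) of Stichtenoth 3.4.6 in the tame case. -/
theorem not_vanishesOn_cotrace_add_pt [IsAlgClosed k] (hLT : LocalTraceBound k F F')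
    (hTT : TameTrace k F F')
    {ω : ↥(repartitions k F) →ₗ[k] k} {W : Divisor k F}
    (hW : ∀ D : Divisor k F, VanishesOn ω D ↔ D ≤ W)
    {ω' : ↥(repartitions k F') →ₗ[k] k}
    (h : ∀ γ : fibConst k F F', ω' (up γ) = ω (tr hLT γ))
    (R : Divisor k F') (hR : ∀ w : Place k F', R w = (w.ramificationIndex F : ℤ) - 1)
    (w₀ : Place k F') (htame : ((w₀.ramificationIndex F : ℕ) : k) ≠ 0) :
    ¬ VanishesOn ω' (Divisor.pullback F' W + R + pt w₀) := by
  classical
  intro hv
  set v₀ := w₀.restrict F with hv₀
  obtain ⟨z, hz0, hz1, hz2, hz3, hz4⟩ := hTT w₀ htame (- W v₀)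
  let γ : fibConst k F F' := ⟨Pi.single v₀ z, single_mem_fibConst v₀ z⟩
  have hmem : up γ ∈ repartitionsOf (Divisor.pullback F' W + R + pt w₀) := by
    rw [mem_repartitionsOf_iff]
    intro w
    rw [up_apply]
    by_cases hw : w.restrict F = v₀
    · right
      have hγ : γ.1 (w.restrict F) = z := by
        show (Pi.single v₀ z : Place k F → F') (w.restrict F) = z
        rw [hw, Pi.single_eq_same]
      rw [hγ]
      simp only [Finsupp.add_apply, Divisor.pullback_apply, hR, hw]
      by_cases hww : w = w₀
      · subst hww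
        rw [hz1, pt, Finsupp.single_eq_same]
        apply le_of_eq
        ring
      · have h1 := hz2 w (Place.mem_fiber.2 hw) hww
        have h2 : (pt w₀ : Divisor k F') w = 0 := by
          rw [pt, Finsupp.single_apply, if_neg (fun h => hww h.symm)]
        have h3 : (1 : ℤ) ≤ (w.ramificationIndex F : ℤ) := by
          have := w.ramificationIndex_pos (F := F)
          omega
        rw [h2]
        linarith
    · left
      show (Pi.single v₀ z : Place k F → F') (w.restrict F) = 0
      rw [Pi.single_eq_of_ne hw]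
  have h0 : ω' (up γ) = 0 := hv (Submodule.mem_sup_left hmem)
  rw [h] at h0
  have htr : tr hLT γ = ⟨Pi.single v₀ (Algebra.trace F F' z),
      single_mem_repartitions v₀ (Algebra.trace F F' z)⟩ := by
    apply Subtype.ext
    funext v
    rw [tr_apply]
    show Algebra.trace F F' ((Pi.single v₀ z : Place k F → F') v) = (Pi.single v₀ (Algebra.trace F F' z) : Place k F → F) v
    by_cases hvv : v = v₀
    · subst hvv
      rw [Pi.single_eq_same, Pi.single_eq_same]
    · rw [Pi.single_eq_of_ne hvv, Pi.single_eq_of_ne hvv, map_zero]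
  rw [htr] at h0
  exact local_component_ne_zero hW v₀ _ hz3 hz4 h0

/-- **Riemann-Hurwitz, tame case, divisor form.** -/
theorem isCanonical_pullback_add [IsAlgClosed k] [Algebra.IsSeparable F F']
    (hLT : LocalTraceBound k F F') (hTT : TameTrace k F F')
    (htame : ∀ w : Place k F', ((w.ramificationIndex F : ℕ) : k) ≠ 0)
    {W : Divisor k F} (hW : IsCanonical W)
    (R : Divisor k F') (hR : ∀ w : Place k F', R w = (w.ramificationIndex F : ℤ) - 1) :
    IsCanonical (Divisor.pullback F' W + R) := by
  obtain ⟨ω, hne, hWω⟩ := IsCanonical.exists_weilDiff hW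
  obtain ⟨ω', hv, h⟩ := exists_cotrace hLT ω W ((hWω W).2 le_rfl) R (fun w => (hR w).le)
  have hne' : ω' ≠ 0 := cotrace_ne_zero hLT h hne
  exact isCanonical_of_vanishesOn_iff hne' (vanishesOn_iff_le_of_not_add_pt hne' hv
    (fun w₀ => not_vanishesOn_cotrace_add_pt hLT hTT hWω h R hR w₀ (htame w₀)))

/-- **Riemann-Hurwitz, tame case.** -/
theorem riemann_hurwitz_eq_of [IsAlgClosed k] [Algebra.IsSeparable F F']
    [FundamentalIdentity k F F']
    (hLT : LocalTraceBound k F F') (hTT : TameTrace k F F')
    (htame : ∀ w : Place k F', ((w.ramificationIndex F : ℕ) : k) ≠ 0)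
    (S : Finset (Place k F')) (hS : ∀ w : Place k F', 1 < w.ramificationIndex F → w ∈ S) :
    (Module.finrank F F' : ℤ) * (2 * genusFF k F - 2)
      + ∑ w ∈ S, ((w.ramificationIndex F : ℤ) - 1) = 2 * genusFF k F' - 2 := by
  classical
  obtain ⟨W, hW⟩ := exists_isCanonical (K := k) (F := F)
  set R : Divisor k F' := ∑ w ∈ S, ((w.ramificationIndex F : ℤ) - 1) • pt w with hRdef
  have hR : ∀ w : Place k F', R w = (w.ramificationIndex F : ℤ) - 1 := by
    intro w
    rw [hRdef, Finsupp.finsetSum_apply]
    by_cases hw : w ∈ S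
    · rw [Finset.sum_eq_single_of_mem w hw]
      · simp [pt]
      · intro b _ hb
        simp [pt, hb]
    · have h1 : w.ramificationIndex F = 1 := by
        have h2 := w.ramificationIndex_pos (F := F)
        have h3 : ¬ 1 < w.ramificationIndex F := fun h => hw (hS w h)
        omega
      rw [h1, Finset.sum_eq_zero]
      · simp
      · intro b hb
        have : b ≠ w := fun h => hw (h ▸ hb)
        simp [pt, this]
  have hcan := isCanonical_pullback_add hLT hTT htame hW R hR
  have hd' := hcan.degree_eq
  have hd := hW.degree_eq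
  rw [ell_zero] at hd hd'
  rw [map_add, Divisor.degree_pullback, hd] at hd'
  have hRdeg : Divisor.degree R = ∑ w ∈ S, ((w.ramificationIndex F : ℤ) - 1) := by
    rw [hRdef, map_sum]
    refine Finset.sum_congr rfl fun w _ => ?_
    rw [map_zsmul, degree_pt, Cor.deg_eq_one_of_isAlgClosed]
    simp
  rw [hRdeg] at hd'
  push_cast at hd' ⊢
  linarith

end Fermat.Agent.GAL.FF
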