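import Fermat.Agent.GAL.FF.RH.LocalTrace
import Fermat.Agent.GAL.FF.RH.Approx
import Fermat.Agent.GAL.FF.RH.LocalComp

/-!
# GAL-FF / RH3: sharpness of the local trace bound at a tamely ramified place
-/

set_option autoImplicit false
set_option linter.style.haveILetI false
set_option linter.unusedSectionVars false

namespace Fermat.Agent.GAL.FF

open AlgebraicCurve Fermat.Agent.Lib.RR

section AbstractP

open IsLocalRing

attribute [local instance] Ideal.Quotient.field

/-- Trace of an element which is, modulo the maximal ideal, a projector onto the span of `r`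
independent elements. -/
theorem TameTrace_trace_sub_mem {R S : Type*} [CommRing R] [CommRing S] [Algebra R S]
    [IsLocalRing R] [Module.Free R S] [Module.Finite R S] (b : S) (r : ℕ) (g : Fin r → S)
    (h2 : ∀ x : S, ∃ c : Fin r → R,
      b * x - ∑ i, c i • g i ∈ (maximalIdeal R).map (algebraMap R S))
    (h3 : ∀ i, b * g i - g i ∈ (maximalIdeal R).map (algebraMap R S))
    (h4 : ∀ c : Fin r → R, ∑ i, c i • g i ∈ (maximalIdeal R).map (algebraMap R S) →
      ∀ i, c i ∈ maximalIdeal R) :
    Algebra.trace R S b - (r : R) ∈ maximalIdeal R := by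
  set p := maximalIdeal R with hp
  set pS := p.map (algebraMap R S) with hpS
  have hsmul : ∀ (c : R) (s : S), Ideal.Quotient.mk p c • Ideal.Quotient.mk pS s
      = Ideal.Quotient.mk pS (c • s) := by
    intro c s
    rw [Ideal.Quotient.mk_smul_mk_quotient_map_quotient, Algebra.smul_def]
  have hsum : ∀ c : Fin r → R, ∑ i, Ideal.Quotient.mk p (c i) • Ideal.Quotient.mk pS (g i)
      = Ideal.Quotient.mk pS (∑ i, c i • g i) := by
    intro c
    rw [map_sum]
    exact Finset.sum_congr rfl fun i _ => hsmul _ _
  let v : Fin r → S ⧸ pS := fun i => Ideal.Quotient.mk pS (g i)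
  have hli : LinearIndependent (R ⧸ p) v := by
    rw [Fintype.linearIndependent_iff]
    intro c hc
    choose c' hc' using fun i => Ideal.Quotient.mk_surjective (c i)
    have h : ∑ i, Ideal.Quotient.mk p (c' i) • Ideal.Quotient.mk pS (g i) = 0 := by
      rw [← hc]
      exact Finset.sum_congr rfl fun i _ => by rw [hc' i]
    rw [hsum, Ideal.Quotient.eq_zero_iff_mem] at h
    intro i
    rw [← hc' i, Ideal.Quotient.eq_zero_iff_mem]
    exact h4 c' h i
  let W : Submodule (R ⧸ p) (S ⧸ pS) := Submodule.span (R ⧸ p) (Set.range v)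
  let f : (S ⧸ pS) →ₗ[R ⧸ p] (S ⧸ pS) := Algebra.lmul (R ⧸ p) (S ⧸ pS) (Ideal.Quotient.mk pS b)
  have hproj : LinearMap.IsProj W f := by
    constructor
    · intro x
      obtain ⟨x', rfl⟩ := Ideal.Quotient.mk_surjective x
      obtain ⟨c, hc⟩ := h2 x'
      have : f (Ideal.Quotient.mk pS x') = Ideal.Quotient.mk pS (∑ i, c i • g i) := by
        change Ideal.Quotient.mk pS b * Ideal.Quotient.mk pS x' = _
        rw [← map_mul, Ideal.Quotient.eq]
        exact hc
      rw [this, ← hsum]
      exact Submodule.sum_mem _ fun i _ => Submodule.smul_mem _ _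
        (Submodule.subset_span ⟨i, rfl⟩)
    · intro x hx
      induction hx using Submodule.span_induction with
      | mem x hx =>
        obtain ⟨i, rfl⟩ := hx
        change Ideal.Quotient.mk pS b * Ideal.Quotient.mk pS (g i) = Ideal.Quotient.mk pS (g i)
        rw [← map_mul, Ideal.Quotient.eq]
        exact h3 i
      | zero => exact map_zero f
      | add x y _ _ hx hy => rw [map_add, hx, hy]
      | smul a x _ hx => rw [map_smul, hx]
  have hfinV : Module.Finite (R ⧸ p) (S ⧸ pS) :=
    Module.Finite.of_basis (basisQuotient (Module.Free.chooseBasis R S))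
  have htr : LinearMap.trace (R ⧸ p) (S ⧸ pS) f = ((Module.finrank (R ⧸ p) W : ℕ) : R ⧸ p) :=
    hproj.trace
  have hfr : Module.finrank (R ⧸ p) W = r := by
    rw [finrank_span_eq_card hli, Fintype.card_fin]
  have hq := Algebra.trace_quotient_mk (R := R) (S := S) b
  rw [Algebra.trace_apply] at hq
  rw [← Ideal.Quotient.eq_zero_iff_mem, map_sub, map_natCast, ← hq, sub_eq_zero, ← hfr]
  exact htr

end AbstractP

section GE

variable {K E : Type*} [Field K] [Field E] [Algebra K E]

/-- `x = 0` or `n ≤ ord_w x`. -/
def TameTrace_ge (w : Place K E) (n : ℤ) (x : E) : Prop := x = 0 ∨ n ≤ w.ord x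

variable {w : Place K E} {n m : ℤ} {x y : E}

theorem TameTrace_ge.zero : TameTrace_ge w n 0 := Or.inl rfl

theorem TameTrace_ge.mono (h : TameTrace_ge w n x) (hmn : m ≤ n) : TameTrace_ge w m x :=
  h.imp id fun h => hmn.trans h

theorem TameTrace_ge.add (hx : TameTrace_ge w n x) (hy : TameTrace_ge w n y) :
    TameTrace_ge w n (x + y) := by
  rcases eq_or_ne x 0 with rfl | hx0
  · rwa [zero_add]
  rcases eq_or_ne y 0 with rfl | hy0
  · rwa [add_zero]
  rcases eq_or_ne (x + y) 0 with h0 | h0
  · exact Or.inl h0
  right
  have := Fermat.Agent.S24.ord_add_ge w h0 hx0 hy0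
  have h1 := hx.resolve_left hx0
  have h2 := hy.resolve_left hy0
  exact (le_min h1 h2).trans this

theorem TameTrace_ge.mul (hx : TameTrace_ge w n x) (hy : TameTrace_ge w m y) :
    TameTrace_ge w (n + m) (x * y) := by
  rcases eq_or_ne x 0 with rfl | hx0
  · left; rw [zero_mul]
  rcases eq_or_ne y 0 with rfl | hy0
  · left; rw [mul_zero]
  right
  rw [w.ord_mul hx0 hy0]
  exact add_le_add (hx.resolve_left hx0) (hy.resolve_left hy0)

theorem TameTrace_ge.neg (hx : TameTrace_ge w n x) : TameTrace_ge w n (-x) := by
  have h : TameTrace_ge w 0 (-1 : E) := by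
    right
    have h1 : w.ord ((-1 : E) * (-1)) = w.ord (-1 : E) + w.ord (-1 : E) :=
      w.ord_mul (by simp) (by simp)
    rw [neg_mul_neg, one_mul, w.ord_one] at h1
    omega
  have := h.mul hx
  rwa [zero_add, neg_one_mul] at this

theorem TameTrace_ge.sub (hx : TameTrace_ge w n x) (hy : TameTrace_ge w n y) :
    TameTrace_ge w n (x - y) := by
  rw [sub_eq_add_neg]
  exact hx.add hy.neg

theorem TameTrace_ge.sum {ι : Type*} (s : Finset ι) (f : ι → E)
    (h : ∀ i ∈ s, TameTrace_ge w n (f i)) : TameTrace_ge w n (∑ i ∈ s, f i) := by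
  classical
  induction s using Finset.induction_on with
  | empty => exact Or.inl rfl
  | insert a s ha ih =>
    rw [Finset.sum_insert ha]
    exact (h a (Finset.mem_insert_self a s)).add
      (ih fun i hi => h i (Finset.mem_insert_of_mem hi))

theorem TameTrace_ge_zero_iff : TameTrace_ge w 0 x ↔ x ∈ w.toValuationSubring := by
  constructor
  · rintro (rfl | h)
    · exact zero_mem _
    · rcases eq_or_ne x 0 with rfl | hx0
      · exact zero_mem _
      · exact Fermat.Agent.S24.mem_of_ord_nonneg w hx0 h
  · intro h
    exact Or.inr (Fermat.Agent.S24.ord_nonneg_of_mem w h)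

theorem TameTrace_ge.pow_of_ord (hx : w.ord x = n) (j : ℕ) :
    TameTrace_ge w (j * n) (x ^ j) := by
  right
  rw [← zpow_natCast, w.ord_zpow, hx]

theorem TameTrace_ge_const (a : K) : TameTrace_ge w 0 (algebraMap K E a) :=
  Or.inr (Fermat.Agent.S24.ord_algebraMap w a).ge

/-- `ord (1 + small) = 0`. -/
theorem TameTrace_ord_eq_zero_of_sub_one (h : TameTrace_ge w 1 (x - 1)) :
    x ≠ 0 ∧ w.ord x = 0 := by
  have h1 : ¬ TameTrace_ge w 1 (1 : E) := by
    rintro (h | h)
    · exact one_ne_zero h
    · rw [w.ord_one] at h; omega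
  have hx0 : x ≠ 0 := by
    rintro rfl
    apply h1
    have := h.neg
    simpa using this
  refine ⟨hx0, ?_⟩
  have h0 : TameTrace_ge w 0 x := by
    have h2 : TameTrace_ge w 0 (1 : E) := Or.inr (by rw [w.ord_one])
    have := (h.mono (by omega : (0 : ℤ) ≤ 1)).add h2
    simpa using this
  have h00 := h0.resolve_left hx0
  by_contra hne
  apply h1
  have h3 : TameTrace_ge w 1 x := Or.inr (by omega)
  have := h3.sub h
  simpa using this

/-- Perturbation does not change the order. -/
theorem TameTrace_ord_eq_of_sub (hx0 : x ≠ 0) (h : TameTrace_ge w (w.ord x + 1) (y - x)) :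
    y ≠ 0 ∧ w.ord y = w.ord x := by
  have h1 : TameTrace_ge w 1 (y / x - 1) := by
    have h2 : TameTrace_ge w (- w.ord x) x⁻¹ := Or.inr (by rw [w.ord_inv])
    have := h.mul h2
    have e : (y - x) * x⁻¹ = y / x - 1 := by field_simp
    rw [e] at this
    exact this.mono (by omega)
  obtain ⟨h3, h4⟩ := TameTrace_ord_eq_zero_of_sub_one h1
  have hy0 : y ≠ 0 := by
    rintro rfl
    simp at h3
  refine ⟨hy0, ?_⟩
  rw [div_eq_mul_inv, w.ord_mul hy0 (inv_ne_zero hx0), w.ord_inv] at h4
  omega

end GE

section Expansion

variable {K E : Type*} [Field K] [Field E] [Algebra K E] [IsAlgClosed K] [IsFF K E]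

/-- Expansion of an element of the valuation ring in powers of a uniformiser. -/
theorem TameTrace_exists_expansion (w : Place K E) (π : E) (hπ : w.ord π = 1) (r : ℕ) :
    ∀ x : E, x ∈ w.toValuationSubring → ∃ a : ℕ → K,
      TameTrace_ge w r (x - ∑ i ∈ Finset.range r, algebraMap K E (a i) * π ^ i) := by
  have hπ0 : π ≠ 0 := by
    rintro rfl
    rw [w.ord_zero] at hπ
    omega
  induction r with
  | zero =>
    intro x hx
    refine ⟨fun _ => 0, ?_⟩
    simpa using TameTrace_ge_zero_iff.2 hx
  | succ r ih =>
    intro x hx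
    obtain ⟨c, hc⟩ := LocalComp_exists_const w x hx
    have hc' : TameTrace_ge w 1 (x - algebraMap K E c) := by
      rcases hc with hc | hc
      · left; rw [hc, sub_self]
      · right; omega
    have hx' : (x - algebraMap K E c) / π ∈ w.toValuationSubring := by
      rw [← TameTrace_ge_zero_iff, div_eq_mul_inv]
      have h2 : TameTrace_ge w (-1) π⁻¹ := Or.inr (by rw [w.ord_inv, hπ])
      exact (hc'.mul h2).mono (by omega)
    obtain ⟨a, ha⟩ := ih _ hx'
    refine ⟨fun i => Nat.casesOn i c a, ?_⟩
    rw [Finset.sum_range_succ']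
    have e : x - (∑ i ∈ Finset.range r, algebraMap K E (a i) * π ^ (i + 1)
        + algebraMap K E c * π ^ 0)
        = ((x - algebraMap K E c) / π - ∑ i ∈ Finset.range r, algebraMap K E (a i) * π ^ i) * π := by
      rw [sub_mul, div_mul_cancel₀ _ hπ0, Finset.sum_mul, pow_zero, mul_one]
      have : ∀ i, algebraMap K E (a i) * π ^ (i + 1) = algebraMap K E (a i) * π ^ i * π := by
        intro i; rw [pow_succ, mul_assoc]
      simp only [this]
      ring
    change TameTrace_ge w _ (x - (∑ i ∈ Finset.range r, algebraMap K E (a i) * π ^ (i + 1)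
        + algebraMap K E c * π ^ 0))
    rw [e]
    have h3 : TameTrace_ge w 1 π := Or.inr hπ.ge
    have := ha.mul h3
    push_cast
    exact this

end Expansion

section Setup

variable {k F F' : Type*} [Field k] [Field F] [Field F'] [Algebra k F]
  [Algebra k F'] [Algebra F F'] [IsScalarTower k F F'] [FiniteDimensional F F']
  [Algebra.IsSeparable F F']

theorem TameTrace_mem_of_isIntegral (v : Place k F)
    [Algebra v.toValuationSubring F'] [IsScalarTower v.toValuationSubring F F'] (x : F')
    (hx : IsIntegral v.toValuationSubring x) (w : Place k F') (hw : w.restrict F = v) :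
    x ∈ w.toValuationSubring := by
  have hv : ∀ a : v.toValuationSubring, algebraMap v.toValuationSubring F' a
      ∈ w.toValuationSubring.toSubring := by
    intro a
    rw [IsScalarTower.algebraMap_apply v.toValuationSubring F F']
    have : (a : F) ∈ (w.restrict F).toValuationSubring := by rw [hw]; exact a.2
    exact (Place.mem_restrict_iff w).1 this
  letI : Algebra v.toValuationSubring w.toValuationSubring :=
    ((algebraMap v.toValuationSubring F').codRestrict w.toValuationSubring.toSubring hv).toAlgebra
  letI : IsScalarTower v.toValuationSubring w.toValuationSubring F' :=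
    IsScalarTower.of_algebraMap_eq fun f => rfl
  have hx' : IsIntegral w.toValuationSubring x := hx.tower_top
  obtain ⟨y, hy⟩ := IsIntegrallyClosed.isIntegral_iff.mp hx'
  rw [← hy]
  exact y.2

theorem TameTrace_trace_eq (v : Place k F)
    [Algebra v.toValuationSubring F'] [IsScalarTower v.toValuationSubring F F']
    (x : integralClosure v.toValuationSubring F') :
    Module.Free v.toValuationSubring (integralClosure v.toValuationSubring F') ∧
    Module.Finite v.toValuationSubring (integralClosure v.toValuationSubring F') ∧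
    Algebra.trace F F' (x : F') =
      ((Algebra.trace v.toValuationSubring (integralClosure v.toValuationSubring F') x :
        v.toValuationSubring) : F) := by
  let A := v.toValuationSubring
  let B := integralClosure A F'
  haveI : Module.Finite A B := IsIntegralClosure.finite A F F' B
  have hinjF : Function.Injective (algebraMap A F') := by
    rw [IsScalarTower.algebraMap_eq A F F']
    exact (algebraMap F F').injective.comp (IsFractionRing.injective A F)
  have hinj : Function.Injective (algebraMap A B) := by
    rw [IsScalarTower.algebraMap_eq A B F', RingHom.coe_comp] at hinjF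
    exact Function.Injective.of_comp hinjF
  haveI : Module.IsTorsionFree A B := by
    have : FaithfulSMul A B := (faithfulSMul_iff_algebraMap_injective A B).mpr hinj
    infer_instance
  haveI : Module.Free A B := Module.free_of_finite_type_torsion_free'
  refine ⟨inferInstance, inferInstance, ?_⟩
  haveI : IsLocalization (Algebra.algebraMapSubmonoid B (nonZeroDivisors A)) F' :=
    IsIntegralClosure.isLocalization A F F' B
  exact Algebra.trace_localization A (nonZeroDivisors A) (Rₘ := F) (Sₘ := F') x

end Setup

section Main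

variable {k F F' : Type*} [Field k] [IsAlgClosed k] [Field F] [Field F'] [Algebra k F]
  [Algebra k F'] [Algebra F F'] [IsScalarTower k F F'] [FiniteDimensional F F']
  [Algebra.IsSeparable F F'] [IsFF k F] [IsFF k F']

/-- The case `m = 1`. -/
theorem TameTrace_core (w₀ : Place k F') (he : ((w₀.ramificationIndex F : ℕ) : k) ≠ 0) :
    ∃ b : F', b ≠ 0 ∧ w₀.ord b = 0 ∧
      (∀ w ∈ (w₀.restrict F).fiber F', w ≠ w₀ → (w.ramificationIndex F : ℤ) ≤ w.ord b) ∧
      Algebra.trace F F' b ≠ 0 ∧ (w₀.restrict F).ord (Algebra.trace F F' b) = 0 := by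
  classical
  set v := w₀.restrict F with hv
  set e₀ := w₀.ramificationIndex F with he₀
  have he₀pos : 0 < e₀ := w₀.ramificationIndex_pos
  have hw₀ : w₀ ∈ v.fiber F' := Place.mem_fiber.2 rfl
  let A := v.toValuationSubring
  letI : Algebra A F' := ((algebraMap F F').comp (algebraMap A F)).toAlgebra
  haveI : IsScalarTower A F F' := IsScalarTower.of_algebraMap_eq fun _ => rfl
  let B := integralClosure A F'
  obtain ⟨t, ht⟩ := IsDiscreteValuationRing.exists_irreducible A
  have htord : v.ord (t : F) = 1 := v.ord_coe_irreducible ht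
  have ht0 : (t : F) ≠ 0 := by
    intro h0
    rw [h0, v.ord_zero] at htord
    exact zero_ne_one htord
  have ht0' : algebraMap F F' (t : F) ≠ 0 := by simpa using ht0
  have htw : ∀ w ∈ v.fiber F', w.ord (algebraMap F F' (t : F)) = w.ramificationIndex F := by
    intro w hw
    rw [w.ord_restrict, Place.mem_fiber.1 hw, htord, mul_one]
  -- the idempotent
  obtain ⟨b, hb⟩ := exists_weak_approx (v.fiber F') (fun w => if w = w₀ then (1 : F') else 0)
    (fun w => (w.ramificationIndex F : ℤ))
  have hb0 : TameTrace_ge w₀ e₀ (b - 1) := by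
    have := hb w₀ hw₀
    simp only [if_true] at this
    have h2 : TameTrace_ge w₀ e₀ (1 - b) := this.imp (fun h => sub_eq_zero.2 h) id
    simpa using h2.neg
  have hbw : ∀ w ∈ v.fiber F', w ≠ w₀ → TameTrace_ge w (w.ramificationIndex F) b := by
    intro w hw hne
    have := hb w hw
    simp only [if_neg hne] at this
    have h2 : TameTrace_ge w (w.ramificationIndex F) (0 - b) :=
      this.imp (fun h => sub_eq_zero.2 h) id
    simpa using h2.neg
  obtain ⟨hbne, hbord⟩ := TameTrace_ord_eq_zero_of_sub_one
    (hb0.mono (by exact_mod_cast he₀pos : (1 : ℤ) ≤ (e₀ : ℤ)))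
  have hbO : ∀ w ∈ v.fiber F', TameTrace_ge w 0 b := by
    intro w hw
    by_cases hne : w = w₀
    · subst hne; exact Or.inr hbord.ge
    · exact (hbw w hw hne).mono (by positivity)
  -- the uniformiser
  obtain ⟨π₀, hπ₀⟩ := IsDiscreteValuationRing.exists_irreducible w₀.toValuationSubring
  have hπ₀ord : w₀.ord (π₀ : F') = 1 := w₀.ord_coe_irreducible hπ₀
  have hπ₀0 : (π₀ : F') ≠ 0 := by
    intro h0
    rw [h0, w₀.ord_zero] at hπ₀ord
    exact zero_ne_one hπ₀ord
  obtain ⟨π, hπ⟩ := exists_weak_approx (v.fiber F') (fun w => if w = w₀ then (π₀ : F') else 0)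
    (fun w => if w = w₀ then (2 : ℤ) else 0)
  obtain ⟨hπne, hπord⟩ : π ≠ 0 ∧ w₀.ord π = w₀.ord (π₀ : F') := by
    apply TameTrace_ord_eq_of_sub hπ₀0
    have := hb w₀ hw₀
    have := hπ w₀ hw₀
    simp only [if_true] at this
    have h2 : TameTrace_ge w₀ 2 ((π₀ : F') - π) := this.imp (fun h => sub_eq_zero.2 h) id
    rw [hπ₀ord]
    simpa using h2.neg
  rw [hπ₀ord] at hπord
  have hπO : ∀ w ∈ v.fiber F', TameTrace_ge w 0 π := by
    intro w hw
    by_cases hne : w = w₀
    · subst hne; exact Or.inr (by omega)
    · have := hπ w hw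
      simp only [if_neg hne] at this
      have h2 : TameTrace_ge w 0 (0 - π) := this.imp (fun h => sub_eq_zero.2 h) id
      simpa using h2.neg
  -- integrality
  have hint : ∀ x : F', (∀ w ∈ v.fiber F', TameTrace_ge w 0 x) → IsIntegral A x := by
    intro x hx
    apply LocalTrace_isIntegral_of_forall_mem v x
    intro w hw
    exact TameTrace_ge_zero_iff.1 (hx w (Place.mem_fiber.2 hw))
  have hintO : ∀ x : B, ∀ w ∈ v.fiber F', TameTrace_ge w 0 (x : F') := by
    intro x w hw
    exact TameTrace_ge_zero_iff.2
      (TameTrace_mem_of_isIntegral v (x : F') x.2 w (Place.mem_fiber.1 hw))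
  have hAO : ∀ a : A, ∀ w ∈ v.fiber F', TameTrace_ge w 0 (algebraMap F F' (a : F)) := by
    intro a w hw
    exact hintO (algebraMap A B a) w hw
  have htmem : t ∈ IsLocalRing.maximalIdeal A := by
    rw [IsLocalRing.mem_maximalIdeal, mem_nonunits_iff]
    exact ht.not_isUnit
  have hpB : ∀ x : B, (∀ w ∈ v.fiber F', TameTrace_ge w (w.ramificationIndex F) (x : F')) →
      x ∈ (IsLocalRing.maximalIdeal A).map (algebraMap A B) := by
    intro x hx
    have hy : IsIntegral A ((x : F') / algebraMap F F' (t : F)) := by
      apply hint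
      intro w hw
      rw [div_eq_mul_inv]
      have h2 : TameTrace_ge w (-(w.ramificationIndex F : ℤ)) (algebraMap F F' (t : F))⁻¹ :=
        Or.inr (by rw [w.ord_inv, htw w hw])
      exact ((hx w hw).mul h2).mono (by omega)
    have hxe : x = algebraMap A B t * ⟨_, hy⟩ := by
      apply Subtype.ext
      change (x : F') = algebraMap F F' (t : F) * ((x : F') / algebraMap F F' (t : F))
      rw [mul_div_cancel₀ _ ht0']
    rw [hxe]
    exact Ideal.mul_mem_right _ _ (Ideal.mem_map_of_mem _ htmem)
  have hpB' : ∀ x : B, x ∈ (IsLocalRing.maximalIdeal A).map (algebraMap A B) →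
      TameTrace_ge w₀ e₀ (x : F') := by
    intro x hx
    rw [ht.maximalIdeal_eq, Ideal.map_span, Set.image_singleton, Ideal.mem_span_singleton'] at hx
    obtain ⟨a, rfl⟩ := hx
    change TameTrace_ge w₀ e₀ ((a : F') * algebraMap F F' (t : F))
    have h2 : TameTrace_ge w₀ e₀ (algebraMap F F' (t : F)) := Or.inr (htw w₀ hw₀).ge
    have := (hintO a w₀ hw₀).mul h2
    rwa [zero_add] at this
  let bB : B := ⟨b, hint b hbO⟩
  let πB : B := ⟨π, hint π hπO⟩
  obtain ⟨hfree, hfin, -⟩ := TameTrace_trace_eq v bB
  have htrace := (TameTrace_trace_eq v bB).2.2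
  have hπpow : ∀ (i : ℕ), ∀ w ∈ v.fiber F', TameTrace_ge w 0 (π ^ i) := by
    intro i w hw
    exact hintO (πB ^ i) w hw
  have hkey := TameTrace_trace_sub_mem (R := A) (S := B) bB e₀ (fun i => bB * πB ^ (i : ℕ))
    (by
      intro x
      obtain ⟨a, ha⟩ := TameTrace_exists_expansion w₀ π hπord e₀ (x : F')
        (TameTrace_ge_zero_iff.1 (hintO x w₀ hw₀))
      refine ⟨fun i => algebraMap k A (a i), ?_⟩
      have hcoe : ((bB * x - ∑ i : Fin e₀, algebraMap k A (a i) • (bB * πB ^ (i : ℕ)) : B) : F')
          = b * ((x : F') - ∑ i ∈ Finset.range e₀, algebraMap k F' (a i) * π ^ i) := by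
        rw [mul_sub, Finset.mul_sum, ← Fin.sum_univ_eq_sum_range
          (fun i => b * (algebraMap k F' (a i) * π ^ i)) e₀]
        push_cast
        congr 1
        refine Finset.sum_congr rfl fun i _ => ?_
        rw [Algebra.smul_def]
        change algebraMap F F' (algebraMap k F (a i)) * (b * π ^ (i : ℕ)) = _
        rw [← IsScalarTower.algebraMap_apply k F F']
        ring
      apply hpB
      intro w hw
      rw [hcoe]
      by_cases hne : w = w₀
      · subst hne
        have := (hbO w hw).mul ha
        rwa [zero_add] at this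
      · have h2 : TameTrace_ge w 0
            ((x : F') - ∑ i ∈ Finset.range e₀, algebraMap k F' (a i) * π ^ i) := by
          apply (hintO x w hw).sub
          apply TameTrace_ge.sum
          intro i _
          have := (TameTrace_ge_const (w := w) (a i)).mul (hπpow i w hw)
          rwa [zero_add] at this
        have := (hbw w hw hne).mul h2
        rwa [add_zero] at this)
    (by
      intro i
      apply hpB
      intro w hw
      have hcoe : ((bB * (bB * πB ^ (i : ℕ)) - bB * πB ^ (i : ℕ) : B) : F')
          = (b - 1) * (b * π ^ (i : ℕ)) := by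
        push_cast
        ring
      rw [hcoe]
      by_cases hne : w = w₀
      · subst hne
        have := hb0.mul ((hbO w hw).mul (hπpow i w hw))
        simpa using this
      · have h1 : TameTrace_ge w 0 (b - 1) :=
          (hbO w hw).sub (Or.inr (by rw [w.ord_one]))
        have := h1.mul ((hbw w hw hne).mul (hπpow i w hw))
        simpa using this)
    (by
      intro c hc
      have H := hpB' _ hc
      have hcoe : ((∑ i : Fin e₀, c i • (bB * πB ^ (i : ℕ)) : B) : F')
          = ∑ i : Fin e₀, algebraMap F F' (c i : F) * (b * π ^ (i : ℕ)) := by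
        push_cast
        refine Finset.sum_congr rfl fun i _ => ?_
        rw [Algebra.smul_def]
        rfl
      rw [hcoe] at H
      have hclaim : ∀ j : ℕ, ∀ i : Fin e₀, (i : ℕ) < j → c i ∈ IsLocalRing.maximalIdeal A := by
        intro j
        induction j with
        | zero => intro i hi; omega
        | succ j ih =>
          intro i hi
          by_cases hij : (i : ℕ) < j
          · exact ih i hij
          have hij' : (i : ℕ) = j := by omega
          have hsplit := Finset.add_sum_erase Finset.univ
            (fun i : Fin e₀ => algebraMap F F' (c i : F) * (b * π ^ (i : ℕ))) (Finset.mem_univ i)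
          have hrest : TameTrace_ge w₀ (j + 1) (∑ x ∈ Finset.univ.erase i,
              algebraMap F F' (c x : F) * (b * π ^ (x : ℕ))) := by
            apply TameTrace_ge.sum
            intro i' hi'
            have hne : i' ≠ i := Finset.ne_of_mem_erase hi'
            have hne' : (i' : ℕ) ≠ j := fun h => hne (Fin.ext (h.trans hij'.symm))
            have hi'lt := i'.2
            have hilt := i.2
            by_cases hlt : (i' : ℕ) < j
            · have hm := ih i' hlt
              rw [Fermat.Agent.S24.mem_maximalIdeal_iff] at hm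
              have h1 : TameTrace_ge w₀ e₀ (algebraMap F F' (c i' : F)) := by
                rcases hm with hm | hm
                · left; rw [hm, map_zero]
                · right
                  rw [w₀.ord_restrict]
                  have : (e₀ : ℤ) * 1 ≤ (e₀ : ℤ) * v.ord (c i' : F) :=
                    mul_le_mul_of_nonneg_left (by omega) (by positivity)
                  linarith
              have := h1.mul ((hbO w₀ hw₀).mul (hπpow i' w₀ hw₀))
              exact this.mono (by omega)
            · have h1 := TameTrace_ge.pow_of_ord hπord (i' : ℕ)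
              have := (hAO (c i') w₀ hw₀).mul ((hbO w₀ hw₀).mul h1)
              exact this.mono (by omega)
          have hterm : TameTrace_ge w₀ (j + 1) (algebraMap F F' (c i : F) * (b * π ^ (i : ℕ))) := by
            have h1 : TameTrace_ge w₀ (j + 1) (∑ i : Fin e₀,
                algebraMap F F' (c i : F) * (b * π ^ (i : ℕ))) :=
              H.mono (by have := i.2; omega)
            have := h1.sub hrest
            rw [← hsplit] at this
            simpa using this
          rw [Fermat.Agent.S24.mem_maximalIdeal_iff]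
          by_cases hc0 : (c i : F) = 0
          · exact Or.inl hc0
          right
          have hc0' : algebraMap F F' (c i : F) ≠ 0 := by simpa using hc0
          have hne0 : algebraMap F F' (c i : F) * (b * π ^ (i : ℕ)) ≠ 0 :=
            mul_ne_zero hc0' (mul_ne_zero hbne (pow_ne_zero _ hπne))
          have hord := hterm.resolve_left hne0
          rw [w₀.ord_mul hc0' (mul_ne_zero hbne (pow_ne_zero _ hπne)),
            w₀.ord_mul hbne (pow_ne_zero _ hπne), hbord, ← zpow_natCast, w₀.ord_zpow, hπord,
            w₀.ord_restrict, hij'] at hord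
          by_contra hneg
          have hnn : 0 ≤ v.ord (c i : F) := Fermat.Agent.S24.ord_nonneg_of_mem v (c i).2
          have hz : v.ord (c i : F) = 0 := by omega
          rw [hz] at hord
          omega
      intro i
      exact hclaim e₀ i i.2)
  have hunit : IsUnit ((e₀ : ℕ) : A) := by
    have h1 : ((e₀ : ℕ) : A) = algebraMap k A ((e₀ : ℕ) : k) := by rw [map_natCast]
    rw [h1]
    exact (IsUnit.mk0 _ he).map (algebraMap k A)
  have hTnot : Algebra.trace A B bB ∉ IsLocalRing.maximalIdeal A := by
    intro hmem
    have h1 : ((e₀ : ℕ) : A) ∈ IsLocalRing.maximalIdeal A := by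
      have := Ideal.sub_mem _ hmem hkey
      simpa using this
    exact (IsLocalRing.mem_maximalIdeal _).1 h1 hunit
  rw [Fermat.Agent.S24.mem_maximalIdeal_iff, not_or] at hTnot
  have htrace' : Algebra.trace F F' b = ((Algebra.trace A B bB : A) : F) := htrace
  refine ⟨b, hbne, hbord, fun w hw hne => (hbw w hw hne).resolve_left hbne, ?_, ?_⟩
  · rw [htrace']; exact hTnot.1
  · rw [htrace']
    have := Fermat.Agent.S24.ord_nonneg_of_mem v (Algebra.trace A B bB).2
    omega

/-- If `e_{w₀}` is invertible in `k`, there is `z` with `ord_{w₀} z = e_{w₀} (m - 1)`,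
`ord_w z ≥ e_w m` at the other places over `v = w₀|F`, and `ord_v (Tr z) = m - 1`. -/
theorem exists_ord_trace_eq (w₀ : Place k F') (he : ((w₀.ramificationIndex F : ℕ) : k) ≠ 0)
    (m : ℤ) :
    ∃ z : F', z ≠ 0 ∧ w₀.ord z = (w₀.ramificationIndex F : ℤ) * (m - 1) ∧
      (∀ w ∈ (w₀.restrict F).fiber F', w ≠ w₀ → (w.ramificationIndex F : ℤ) * m ≤ w.ord z) ∧
      Algebra.trace F F' z ≠ 0 ∧ (w₀.restrict F).ord (Algebra.trace F F' z) = m - 1 := by
  obtain ⟨b, hb0, hbord, hbw, htr0, htrord⟩ := TameTrace_core w₀ he
  obtain ⟨t, ht⟩ := IsDiscreteValuationRing.exists_irreducible (w₀.restrict F).toValuationSubring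
  have htord : (w₀.restrict F).ord (t : F) = 1 := (w₀.restrict F).ord_coe_irreducible ht
  have ht0 : (t : F) ≠ 0 := by
    intro h0
    rw [h0, Place.ord_zero] at htord
    exact zero_ne_one htord
  set u : F := (t : F) ^ (m - 1) with hu
  have hu0 : u ≠ 0 := zpow_ne_zero _ ht0
  have hu0' : algebraMap F F' u ≠ 0 := by simpa using hu0
  have huord : (w₀.restrict F).ord u = m - 1 := by
    rw [hu, Place.ord_zpow, htord, mul_one]
  have htr : Algebra.trace F F' (algebraMap F F' u * b) = u * Algebra.trace F F' b := by
    rw [← Algebra.smul_def, map_smul, smul_eq_mul]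
  refine ⟨algebraMap F F' u * b, mul_ne_zero hu0' hb0, ?_, ?_, ?_, ?_⟩
  · rw [w₀.ord_mul hu0' hb0, hbord, w₀.ord_restrict, huord, add_zero]
  · intro w hw hne
    rw [w.ord_mul hu0' hb0, w.ord_restrict, Place.mem_fiber.1 hw, huord]
    have := hbw w hw hne
    linarith
  · rw [htr]; exact mul_ne_zero hu0 htr0
  · rw [htr, Place.ord_mul _ hu0 htr0, huord, htrord, add_zero]

end Main

end Fermat.Agent.GAL.FF
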