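import Fermat.Agent.GAL.FF.RH.Tame
import Fermat.Agent.GAL.FF.RH.TameTrace
import Fermat.Agent.GAL.FF.RH.Ineq

/-!
# GAL-FF / RH: the Riemann-Hurwitz formula for tamely ramified extensions (final plug-in)
-/

set_option autoImplicit false

namespace Fermat.Agent.GAL.FF

open AlgebraicCurve Fermat.Agent.Lib.RR

variable {k F F' : Type*} [Field k] [IsAlgClosed k] [Field F] [Field F'] [Algebra k F]
  [Algebra k F'] [Algebra F F'] [IsScalarTower k F F'] [FiniteDimensional F F']
  [Algebra.IsSeparable F F'] [IsFF k F] [IsFF k F']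

theorem localTraceBound : LocalTraceBound k F F' := fun v z m h => ord_trace_ge v z m h

theorem tameTrace : TameTrace k F F' := fun w he m => exists_ord_trace_eq w he m

/-- Tame case: `π^* W + ∑ (e_w - 1) w` is canonical. -/
theorem isCanonical_pullback_add_ramDiv {W : Divisor k F} (hW : IsCanonical W)
    (S : Finset (Place k F')) (hS : ∀ w : Place k F', w ∉ S → w.ramificationIndex F = 1)
    (htame : ∀ w : Place k F', ((w.ramificationIndex F : ℕ) : k) ≠ 0) :
    IsCanonical (Divisor.pullback F' W + ramDiv F S) := by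
  refine isCanonical_pullback_add localTraceBound tameTrace htame hW _ fun w => ?_
  by_cases hw : w ∈ S
  · exact ramDiv_apply_of_mem hw
  · rw [ramDiv_apply_of_notMem hw, hS w hw]; simp

/-- **Riemann-Hurwitz formula**, tame case. -/
theorem riemann_hurwitz_tame
    (S : Finset (Place k F')) (hS : ∀ w : Place k F', w ∉ S → w.ramificationIndex F = 1)
    (htame : ∀ w : Place k F', ((w.ramificationIndex F : ℕ) : k) ≠ 0) :
    2 * (genusFF k F' : ℤ) - 2 = (Module.finrank F F' : ℤ) * (2 * (genusFF k F : ℤ) - 2) +
      ∑ w ∈ S, ((w.ramificationIndex F : ℤ) - 1) := by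
  obtain ⟨W, hW⟩ := exists_isCanonical (K := k) (F := F)
  have h := (isCanonical_pullback_add_ramDiv (F' := F') hW S hS htame).degree_eq
  rw [degree_pullback_add_ramDiv, hW.degree_eq, ell_zero, ell_zero] at h
  push_cast at h
  linarith

end Fermat.Agent.GAL.FF
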