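import Fermat.Agent.GAL.FF.RH.Defs

/-!
# GAL-FF / RH10: restriction of places and ramification indices in towers `F ⊆ F' ⊆ F''`
-/

set_option autoImplicit false

namespace Fermat.Agent.GAL.FF

open AlgebraicCurve Fermat.Agent.Lib.RR

variable {k F F' F'' : Type*} [Field k] [Field F] [Field F'] [Field F''] [Algebra k F]
  [Algebra k F'] [Algebra k F''] [Algebra F F'] [Algebra F' F''] [Algebra F F'']
  [IsScalarTower k F F'] [IsScalarTower k F' F''] [IsScalarTower k F F'']
  [IsScalarTower F F' F''] [Algebra.IsIntegral F F'] [Algebra.IsIntegral F' F'']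
  [Algebra.IsIntegral F F'']

theorem restrict_restrict (w : Place k F'') : (w.restrict F').restrict F = w.restrict F := by
  apply Place.ext
  ext x
  rw [Place.mem_restrict_iff, Place.mem_restrict_iff, Place.mem_restrict_iff,
    ← IsScalarTower.algebraMap_apply]

theorem ramificationIndex_tower (w : Place k F'') :
    w.ramificationIndex F = w.ramificationIndex F' * (w.restrict F').ramificationIndex F := by
  obtain ⟨π, hπ⟩ := IsDiscreteValuationRing.exists_irreducible (w.restrict F).toValuationSubring
  have hπord : (w.restrict F).ord (π : F) = 1 := (w.restrict F).ord_coe_irreducible hπ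
  have h1 := w.ord_restrict (F := F) (π : F)
  have h2 := w.ord_restrict (F := F') (algebraMap F F' (π : F))
  have h3 := (w.restrict F').ord_restrict (F := F) (π : F)
  rw [restrict_restrict, hπord, mul_one] at h3
  rw [hπord, mul_one] at h1
  rw [← IsScalarTower.algebraMap_apply, h1, h3] at h2
  exact_mod_cast h2

/-- Characterisation of the ramification index by one element of order `1`. -/
theorem ramificationIndex_eq_of_ord_eq_one (w : Place k F') {t : F}
    (ht : (w.restrict F).ord t = 1) :
    (w.ramificationIndex F : ℤ) = w.ord (algebraMap F F' t) := by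
  rw [w.ord_restrict t, ht, mul_one]

end Fermat.Agent.GAL.FF
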